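/-
FrobCHGen, node Q10a (helper151): the anisotropic binary form `A² + e A B - F₀ B²` over `k[X]`
has degree exactly `2 max (deg A) (deg B)`.  Mathlib only.
-/
import Mathlib

set_option autoImplicit false

namespace Fermat.Agent.Lib.FrobCHGen

open Polynomial

variable {k : Type*} [Field k]

theorem natDegree_aniso (F₀ e : k) (hno : ∀ r : k, r ^ 2 ≠ F₀ + e * r) (A B : k[X])
    (hAB : A ≠ 0 ∨ B ≠ 0) :
    A ^ 2 + C e * A * B - C F₀ * B ^ 2 ≠ 0 ∧
    (A ^ 2 + C e * A * B - C F₀ * B ^ 2).natDegree = 2 * max A.natDegree B.natDegree := by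
  set n := max A.natDegree B.natDegree with hn
  have hA : A.natDegree ≤ n := le_max_left _ _
  have hB : B.natDegree ≤ n := le_max_right _ _
  set a := A.coeff n with ha
  set b := B.coeff n with hb
  -- one of the two coefficients is nonzero
  have hab : a ≠ 0 ∨ b ≠ 0 := by
    rcases le_total A.natDegree B.natDegree with h | h
    · have hnB : n = B.natDegree := max_eq_right h
      by_cases hB0 : B = 0
      · have hA0 : A ≠ 0 := hAB.resolve_right (not_not.mpr hB0)
        left
        have hn0 : n = 0 := by rw [hnB, hB0, natDegree_zero]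
        have hAn : A.natDegree = n := by omega
        rw [ha, ← hAn]
        exact leadingCoeff_ne_zero.mpr hA0
      · right
        rw [hb, hnB]
        exact leadingCoeff_ne_zero.mpr hB0
    · have hnA : n = A.natDegree := max_eq_left h
      by_cases hA0 : A = 0
      · have hB0 : B ≠ 0 := hAB.resolve_left (not_not.mpr hA0)
        right
        have hn0 : n = 0 := by rw [hnA, hA0, natDegree_zero]
        have hBn : B.natDegree = n := by omega
        rw [hb, ← hBn]
        exact leadingCoeff_ne_zero.mpr hB0
      · left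
        rw [ha, hnA]
        exact leadingCoeff_ne_zero.mpr hA0
  -- the top coefficient
  have hc : (A ^ 2 + C e * A * B - C F₀ * B ^ 2).coeff (2 * n) =
      a ^ 2 + e * a * b - F₀ * b ^ 2 := by
    rw [coeff_sub, coeff_add, coeff_pow_of_natDegree_le hA, mul_assoc, coeff_C_mul, coeff_C_mul,
      coeff_pow_of_natDegree_le hB, two_mul, coeff_mul_add_eq_of_natDegree_le hA hB, mul_assoc]
  have hne : a ^ 2 + e * a * b - F₀ * b ^ 2 ≠ 0 := by
    intro h0
    by_cases hb0 : b = 0
    · rw [hb0] at h0
      have : a = 0 := by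
        have : a ^ 2 = 0 := by linear_combination h0
        exact pow_eq_zero_iff (two_ne_zero) |>.mp this
      exact (hab.resolve_right (not_not.mpr hb0)) this
    · apply hno (-a / b)
      field_simp
      linear_combination h0
  have hdeg : (A ^ 2 + C e * A * B - C F₀ * B ^ 2).natDegree ≤ 2 * n := by
    have h1 : (A ^ 2).natDegree ≤ 2 * n := natDegree_pow_le_of_le 2 hA
    have h2 : (C e * A * B).natDegree ≤ 2 * n := by
      rw [mul_assoc]
      refine (natDegree_C_mul_le _ _).trans ?_
      refine natDegree_mul_le.trans ?_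
      omega
    have h3 : (C F₀ * B ^ 2).natDegree ≤ 2 * n :=
      (natDegree_C_mul_le _ _).trans (natDegree_pow_le_of_le 2 hB)
    exact (natDegree_sub_le_of_le (natDegree_add_le_of_degree_le h1 h2) h3).trans (by simp)
  refine ⟨?_, natDegree_eq_of_le_of_coeff_ne_zero hdeg (hc ▸ hne)⟩
  intro h0
  rw [h0, coeff_zero] at hc
  exact hne hc.symm

end Fermat.Agent.Lib.FrobCHGen
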