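import Fermat.Agent.Lib.FrobCHGen.Field
import Fermat.Agent.Lib.FrobCH.Short

/-!
# FrobCHGen, block Q8: the subgroup of odd points (owner helper191)
-/

set_option autoImplicit false

namespace Fermat.Agent.Lib.FrobCHGen

open Polynomial WeierstrassCurve WeierstrassCurve.Affine
open Fermat.Agent.Lib.FrobCH (hdeg hgt frob IsConst IsX dmax pol)
open scoped QuadraticAlgebra

variable {k : Type*} [Field k]

/-- the equation of the curve in the form `y² = f + b y` (local copy) -/
private theorem odd_equation_iff (W : WeierstrassCurve k) {K : Type*} [Field K] [Algebra k K]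
    (t y : K) :
    (W⁄K).Equation t y ↔ y ^ 2 = aeval t (fpol W) + aeval t (bpol W) * y := by
  rw [Affine.equation_iff]
  simp only [fpol, bpol, map_add, map_mul, map_pow, map_neg, aeval_X, aeval_C,
    Affine.baseChange, WeierstrassCurve.baseChange, WeierstrassCurve.map_a₁,
    WeierstrassCurve.map_a₂, WeierstrassCurve.map_a₃, WeierstrassCurve.map_a₄,
    WeierstrassCurve.map_a₆]
  constructor <;> intro h <;> linear_combination h

private theorem odd_aeval_X (W : WeierstrassCurve k) (p : k[X]) :
    aeval (algebraMap (RatFunc k) (QL W) RatFunc.X) p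
      = algebraMap (RatFunc k) (QL W) (algebraMap k[X] (RatFunc k) p) := by
  rw [aeval_algebraMap_apply, ← RatFunc.algebraMap_X, aeval_algebraMap_apply, aeval_X_left_apply]

theorem nonsingular_eta (W : WeierstrassCurve k) (hΔ : W.Δ ≠ 0) :
    (W⁄(QL W)).Nonsingular (algebraMap (RatFunc k) (QL W) RatFunc.X) ω := by
  have hΔ' : (W⁄(QL W)).Δ ≠ 0 := by
    simp only [Affine.baseChange, WeierstrassCurve.baseChange, WeierstrassCurve.map_Δ]
    exact (_root_.map_ne_zero _).mpr hΔ
  refine (Affine.equation_iff_nonsingular_of_Δ_ne_zero hΔ').mp ?_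
  rw [odd_equation_iff, odd_aeval_X, odd_aeval_X, sq, QuadraticAlgebra.omega_mul_omega_eq_add]
  simp [Algebra.smul_def]

theorem eta_mem (W : WeierstrassCurve k) [DecidableEq (QL W)]
    (h : (W⁄(QL W)).Nonsingular (algebraMap (RatFunc k) (QL W) RatFunc.X) ω) :
    Point.some _ _ h ∈ oddSubgroup W := by
  rw [mem_oddSubgroup, Point.map_some, Point.neg_some]
  have h1 : conjL W (algebraMap (RatFunc k) (QL W) RatFunc.X)
      = algebraMap (RatFunc k) (QL W) RatFunc.X := by
    rw [conjL_apply]; ext <;> simp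
  have h2 : conjL W (ω : QL W)
      = (W⁄(QL W)).negY (algebraMap (RatFunc k) (QL W) RatFunc.X) ω := by
    rw [conjL_apply, Affine.negY]
    simp only [Affine.baseChange, WeierstrassCurve.baseChange, WeierstrassCurve.map_a₁,
      WeierstrassCurve.map_a₃]
    ext
    · rw [QuadraticAlgebra.re_star, QuadraticAlgebra.omega_re, QuadraticAlgebra.omega_im,
        QuadraticAlgebra.re_sub, QuadraticAlgebra.re_sub, QuadraticAlgebra.re_neg,
        QuadraticAlgebra.omega_re]
      simp [bpol, IsScalarTower.algebraMap_apply k (RatFunc k) (QL W), RatFunc.algebraMap_C,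
        RatFunc.algebraMap_X]
      ring
    · rw [QuadraticAlgebra.im_star, QuadraticAlgebra.im_sub, QuadraticAlgebra.im_sub,
        QuadraticAlgebra.im_neg]
      simp [IsScalarTower.algebraMap_apply k (RatFunc k) (QL W)]
  simp only [h1, h2]

theorem frob_mem [Fintype k] (W : WeierstrassCurve k) [DecidableEq (QL W)]
    {P : (W⁄(QL W)).Point} (hP : P ∈ oddSubgroup W) : frob W (QL W) P ∈ oddSubgroup W := by
  rw [mem_oddSubgroup] at hP ⊢
  rw [Fermat.Agent.Lib.FrobCH.map_frob, hP, map_neg]

/-- `2 ≠ 0` or `b ≠ 0` -/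
theorem two_ne_zero_or_bpol_ne_zero (W : WeierstrassCurve k) (hΔ : W.Δ ≠ 0) :
    (2 : k) ≠ 0 ∨ bpol W ≠ 0 := by
  by_contra hcon
  rw [not_or, not_not, not_not] at hcon
  obtain ⟨h2, hb⟩ := hcon
  have ha₁ : W.a₁ = 0 := by
    have := congrArg (fun p => p.coeff 1) hb
    simpa [bpol] using this
  have ha₃ : W.a₃ = 0 := by
    have := congrArg (fun p => p.coeff 0) hb
    simpa [bpol] using this
  apply hΔ
  have h4 : (4 : k) = 0 := by
    have : (4 : k) = 2 * 2 := by norm_num
    rw [this, h2, zero_mul]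
  have hb₂ : W.b₂ = 0 := by simp [WeierstrassCurve.b₂, ha₁, h4]
  have hb₄ : W.b₄ = 0 := by simp [WeierstrassCurve.b₄, ha₁, h2]
  have hb₆ : W.b₆ = 0 := by simp [WeierstrassCurve.b₆, ha₃, h4]
  simp [WeierstrassCurve.Δ, hb₂, hb₄, hb₆]

theorem exists_algebraMap_of_star_eq (W : WeierstrassCurve k) (hΔ : W.Δ ≠ 0) (z : QL W)
    (hz : star z = z) : ∃ r : RatFunc k, z = algebraMap (RatFunc k) (QL W) r := by
  have hre := congrArg QuadraticAlgebra.re hz
  have him := congrArg QuadraticAlgebra.im hz
  rw [QuadraticAlgebra.re_star] at hre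
  rw [QuadraticAlgebra.im_star] at him
  have h0 : z.im = 0 := by
    rcases two_ne_zero_or_bpol_ne_zero W hΔ with h2 | hb
    · have h2' : (2 : RatFunc k) ≠ 0 := by
        have : (2 : RatFunc k) = algebraMap k (RatFunc k) 2 :=
          (map_ofNat (algebraMap k (RatFunc k)) 2).symm
        rw [this]
        exact (_root_.map_ne_zero _).mpr h2
      have : 2 * z.im = 0 := by linear_combination -him
      exact (mul_eq_zero.mp this).resolve_left h2'
    · have hb' : algebraMap k[X] (RatFunc k) (bpol W) ≠ 0 :=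
        (map_ne_zero_iff _ (IsFractionRing.injective k[X] (RatFunc k))).mpr hb
      have : algebraMap k[X] (RatFunc k) (bpol W) * z.im = 0 := by linear_combination hre
      exact (mul_eq_zero.mp this).resolve_left hb'
  exact ⟨z.re, by ext <;> simp [h0]⟩

theorem xRat_of_mem (W : WeierstrassCurve k) (hΔ : W.Δ ≠ 0) [DecidableEq (QL W)]
    {P : (W⁄(QL W)).Point} (hP : P ∈ oddSubgroup W) : XRat k P := by
  rw [mem_oddSubgroup] at hP
  rcases P with _ | ⟨x, y, h⟩
  · exact Or.inl rfl
  · right
    rw [Point.map_some, Point.neg_some] at hP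
    have hx : star x = x := by
      have := (Point.some.injEq _ _ _ _ _ _).mp hP
      simpa using this.1
    obtain ⟨r, rfl⟩ := exists_algebraMap_of_star_eq W hΔ x hx
    exact ⟨r, y, h, rfl⟩

end Fermat.Agent.Lib.FrobCHGen
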