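import Fermat.Agent.Lib.FrobCHGen.ConstCore
import Fermat.Agent.Lib.FrobCHGen.Odd

/-!
# FrobCHGen, node Q10b: odd points of height `0` are constant.   Owner: helper294.
The proof is in `ConstCore.lean` (`Const.const_of_xRat`).
-/

set_option autoImplicit false

namespace Fermat.Agent.Lib.FrobCHGen

open Polynomial WeierstrassCurve WeierstrassCurve.Affine
open Fermat.Agent.Lib.FrobCH (hdeg hgt frob IsConst IsX dmax pol)
open Fermat.Agent.Lib.FrobCHGen
open scoped QuadraticAlgebra

variable {k : Type*} [Field k]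

theorem const_of_hgt_eq_zero (W : WeierstrassCurve k) (hΔ : W.Δ ≠ 0) [DecidableEq (QL W)]
    {P : (W⁄(QL W)).Point} (hP : P ∈ oddSubgroup W) (h0 : hgt k P = 0) : IsConst P :=
  Const.const_of_xRat W (xRat_of_mem W hΔ hP) h0

end Fermat.Agent.Lib.FrobCHGen
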