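import Fermat.Agent.Lib.FrobCHGen.Field
import Fermat.Agent.Lib.FrobCHGen.Aniso
import Fermat.Agent.Lib.FrobCH.Const

/-!
# FrobCHGen, node Q10b (core): points of height `0` with rational `x`-coordinate are constant.
Owner: helper294.
-/

set_option autoImplicit false

namespace Fermat.Agent.Lib.FrobCHGen

open Polynomial WeierstrassCurve WeierstrassCurve.Affine
open Fermat.Agent.Lib.FrobCH (hdeg hgt frob IsConst IsX dmax pol)
open Fermat.Agent.Lib.FrobCHGen
open scoped QuadraticAlgebra

variable {k : Type*} [Field k]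

/-- the parity argument: if `T² = F₀ + e T` has no root in `k`, then
`α² + f β² = F₀ + e α` has no solution in rational functions. -/
theorem Const.no_solution (W : WeierstrassCurve k) (F₀ e : k)
    (hno : ∀ r : k, r ^ 2 ≠ F₀ + e * r) (α β : RatFunc k)
    (h : α ^ 2 + algebraMap k[X] (RatFunc k) (fpol W) * β ^ 2
      = RatFunc.C F₀ + RatFunc.C e * α) : False := by
  have hno' : ∀ r : k, r ^ 2 ≠ F₀ + (-e) * r := by
    intro r hr
    apply hno (-r)
    rw [neg_sq, hr]
    ring
  set A : k[X] := α.num * β.denom with hA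
  set D : k[X] := α.denom * β.denom with hD
  set B : k[X] := β.num * α.denom with hB
  have hD0 : D ≠ 0 := mul_ne_zero α.denom_ne_zero β.denom_ne_zero
  have hd₁ : algebraMap k[X] (RatFunc k) α.denom ≠ 0 := RatFunc.algebraMap_ne_zero α.denom_ne_zero
  have hd₂ : algebraMap k[X] (RatFunc k) β.denom ≠ 0 := RatFunc.algebraMap_ne_zero β.denom_ne_zero
  have hα : α * algebraMap k[X] (RatFunc k) α.denom = algebraMap k[X] (RatFunc k) α.num := by
    have h5 := RatFunc.num_div_denom α
    rw [div_eq_iff hd₁] at h5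
    exact h5.symm
  have hβ : β * algebraMap k[X] (RatFunc k) β.denom = algebraMap k[X] (RatFunc k) β.num := by
    have h5 := RatFunc.num_div_denom β
    rw [div_eq_iff hd₂] at h5
    exact h5.symm
  have key : A ^ 2 + C (-e) * A * D - C F₀ * D ^ 2 = - fpol W * B ^ 2 := by
    apply RatFunc.algebraMap_injective k
    have hC : ∀ c : k, algebraMap k[X] (RatFunc k) (C c) = RatFunc.C c := fun c => rfl
    simp only [hA, hD, hB, map_add, map_sub, map_mul, map_pow, map_neg, hC, ← hα, ← hβ]
    linear_combination (algebraMap k[X] (RatFunc k) α.denom) ^ 2 *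
      (algebraMap k[X] (RatFunc k) β.denom) ^ 2 * h
  obtain ⟨h1, h2⟩ := natDegree_aniso F₀ (-e) hno' A D (Or.inr hD0)
  rw [key] at h1 h2
  have hB0 : B ≠ 0 := by
    rintro h0
    apply h1
    rw [h0]
    simp
  have hf0 : fpol W ≠ 0 := by
    intro h0
    have := natDegree_fpol W
    rw [h0] at this
    simp at this
  rw [neg_mul, natDegree_neg, natDegree_mul hf0 (pow_ne_zero 2 hB0), natDegree_pow,
    natDegree_fpol] at h2
  omega

/-- local copy of `equation_iff'` (node Q1) -/
theorem Const.equation_iff_aux (W : WeierstrassCurve k) {K : Type*} [Field K] [Algebra k K]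
    (t y : K) :
    (W⁄K).Equation t y ↔ y ^ 2 = aeval t (fpol W) + aeval t (bpol W) * y := by
  rw [Affine.equation_iff]
  simp only [fpol, bpol, map_add, map_mul, map_pow, map_neg, aeval_X, aeval_C,
    WeierstrassCurve.baseChange, WeierstrassCurve.map_a₁, WeierstrassCurve.map_a₂,
    WeierstrassCurve.map_a₃, WeierstrassCurve.map_a₄, WeierstrassCurve.map_a₆]
  constructor <;> intro h <;> linear_combination h

theorem Const.const_of_xRat (W : WeierstrassCurve k) [DecidableEq (QL W)]
    {P : (W⁄(QL W)).Point} (hP : XRat k P) (h0 : hgt k P = 0) : IsConst P := by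
  rcases hP with rfl | ⟨r, v, h, rfl⟩
  · exact Or.inl rfl
  rw [FrobCH.Const_hgt_some] at h0
  obtain ⟨c₀, rfl⟩ := FrobCH.Const_exists_C_of_hdeg_eq_zero r h0
  have hc : algebraMap (RatFunc k) (QL W) (RatFunc.C c₀) = algebraMap k (QL W) c₀ := by
    rw [IsScalarTower.algebraMap_apply k (RatFunc k) (QL W)]
    rfl
  have heq := (Const.equation_iff_aux W _ _).1 h.1
  rw [hc, aeval_algebraMap_apply, aeval_algebraMap_apply] at heq
  simp only [coe_aeval_eq_eval] at heq
  set F₀ : k := (fpol W).eval c₀ with hF₀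
  set e : k := (bpol W).eval c₀ with he
  by_cases hroot : ∃ r₀ : k, r₀ ^ 2 = F₀ + e * r₀
  · obtain ⟨r₀, hr₀⟩ := hroot
    have h1 : (v - algebraMap k (QL W) r₀) * (v - algebraMap k (QL W) (e - r₀)) = 0 := by
      have h2 : algebraMap k (QL W) r₀ ^ 2
          = algebraMap k (QL W) F₀ + algebraMap k (QL W) e * algebraMap k (QL W) r₀ := by
        rw [← map_pow, hr₀, map_add, map_mul]
      rw [map_sub]
      linear_combination heq - h2
    right
    rcases mul_eq_zero.1 h1 with h2 | h2
    · obtain ⟨h', hh'⟩ := FrobCH.Const_some_congr h hc (sub_eq_zero.1 h2)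
      exact ⟨c₀, r₀, h', hh'⟩
    · obtain ⟨h', hh'⟩ := FrobCH.Const_some_congr h hc (sub_eq_zero.1 h2)
      exact ⟨c₀, e - r₀, h', hh'⟩
  · exfalso
    apply Const.no_solution W F₀ e (fun r₀ hr₀ => hroot ⟨r₀, hr₀⟩) v.re v.im
    have h1 := congrArg QuadraticAlgebra.re heq
    have hre : ∀ c : k, (algebraMap k (QL W) c).re = RatFunc.C c := fun c => rfl
    have him : ∀ c : k, (algebraMap k (QL W) c).im = 0 := fun c => rfl
    rw [pow_two, QuadraticAlgebra.re_mul, QuadraticAlgebra.re_add, QuadraticAlgebra.re_mul,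
      hre, hre, him] at h1
    linear_combination h1

end Fermat.Agent.Lib.FrobCHGen
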