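import Fermat.Agent.Lib.FrobCHGen.Field

/-!
# FrobCHGen, node Q6: point count of a general Weierstrass curve over a finite field by the fibres
of `x`  (task 1992, helper181)
-/

set_option autoImplicit false

namespace Fermat.Agent.Lib.FrobCHGen

open Polynomial WeierstrassCurve WeierstrassCurve.Affine
open Fermat.Agent.Lib.FrobCH (hdeg hgt frob IsConst IsX dmax pol)
open scoped QuadraticAlgebra

noncomputable section

variable {k : Type*} [Field k]

/-- the equation of the curve in the form `y² = f(x) + b(x) y` -/
lemma countCard_equation_iff (W : WeierstrassCurve k) (x y : k) :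
    W.toAffine.Equation x y ↔ y ^ 2 = (fpol W).eval x + (bpol W).eval x * y := by
  rw [Affine.equation_iff]
  simp only [fpol, bpol, eval_add, eval_mul, eval_pow, eval_X, eval_C, eval_neg]
  constructor
  · intro h
    linear_combination h
  · intro h
    linear_combination h

/-- the points as the origin together with the solutions of `y² = f(c) + b(c) y` -/
def countCardEquiv (W : WeierstrassCurve k) (hΔ : W.Δ ≠ 0) :
    W.toAffine.Point ≃
      Option (Σ c : k, {y : k // y ^ 2 = (fpol W).eval c + (bpol W).eval c * y}) where
  toFun
    | .zero => none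
    | .some x y h => some ⟨x, y, (countCard_equation_iff W x y).1 h.1⟩
  invFun
    | none => .zero
    | some ⟨x, y, h⟩ => .some x y
        ((Affine.equation_iff_nonsingular_of_Δ_ne_zero (W := W.toAffine) hΔ).1
          ((countCard_equation_iff W x y).2 h))
  left_inv P := by
    cases P <;> rfl
  right_inv P := by
    rcases P with _ | ⟨x, y, h⟩ <;> rfl

/-- a quadratic equation has at most two solutions -/
lemma countCard_fibre_le (e b : k) : Nat.card {y : k // y ^ 2 = e + b * y} ≤ 2 := by
  classical
  set P : k[X] := X ^ 2 - (C b * X + C e) with hP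
  have hdeg : (C b * X + C e : k[X]).degree < (X ^ 2 : k[X]).degree := by
    rw [degree_X_pow]
    exact lt_of_le_of_lt (degree_linear_le) (by norm_num)
  have hPd : P.natDegree = 2 := by
    rw [hP, natDegree_sub_eq_left_of_natDegree_lt, natDegree_X_pow]
    rw [natDegree_X_pow]
    exact lt_of_le_of_lt natDegree_linear_le (by norm_num)
  have hP0 : P ≠ 0 := by
    intro h
    rw [h, natDegree_zero] at hPd
    omega
  have hset : {y : k | y ^ 2 = e + b * y} = (P.roots.toFinset : Set k) := by
    ext y
    simp only [Finset.mem_coe, Multiset.mem_toFinset, mem_roots hP0, IsRoot.def]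
    change y ^ 2 = e + b * y ↔ _
    simp only [hP, eval_sub, eval_pow, eval_X, eval_add, eval_mul, eval_C]
    constructor
    · intro h
      rw [h]
      ring
    · intro h
      linear_combination h
  have h1 : Nat.card {y : k // y ^ 2 = e + b * y} = Nat.card ({y : k | y ^ 2 = e + b * y} : Set k) :=
    rfl
  rw [h1, hset, Nat.card_coe_set_eq, Set.ncard_coe_finset]
  calc P.roots.toFinset.card ≤ Multiset.card P.roots := Multiset.toFinset_card_le _
    _ ≤ P.natDegree := card_roots' P
    _ = 2 := hPd

lemma countCard_fibre (W : WeierstrassCurve k) (c : k) :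
    Nat.card {y : k // y ^ 2 = (fpol W).eval c + (bpol W).eval c * y} + ecan W c = 2 := by
  have := countCard_fibre_le ((fpol W).eval c) ((bpol W).eval c)
  unfold ecan
  omega

theorem card_add_sum_ecan [Fintype k] (W : WeierstrassCurve k) (hΔ : W.Δ ≠ 0) :
    Nat.card W.toAffine.Point + ∑ c : k, ecan W c = 2 * Fintype.card k + 1 := by
  classical
  rw [Nat.card_congr (countCardEquiv W hΔ), Finite.card_option, Nat.card_sigma]
  have hsum : ∑ c : k, (Nat.card {y : k // y ^ 2 = (fpol W).eval c + (bpol W).eval c * y}
      + ecan W c) = 2 * Fintype.card k := by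
    rw [Finset.sum_congr rfl fun c _ => countCard_fibre W c]
    simp [mul_comm]
  rw [Finset.sum_add_distrib] at hsum
  omega

end

end Fermat.Agent.Lib.FrobCHGen
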