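import Fermat.Agent.Lib.FrobCHGen.Field

/-!
# FrobCHGen, node Q4b: simple zero of `Nm W` at a ramified fibre.   Owner: helper272.
-/

set_option autoImplicit false

namespace Fermat.Agent.Lib.FrobCHGen

open Polynomial WeierstrassCurve WeierstrassCurve.Affine
open scoped QuadraticAlgebra

namespace LocalDouble

section Abs

variable {R : Type*} [CommRing R] {a b : R}

open QuadraticAlgebra

theorem trace_pow_add_two (z : QuadraticAlgebra R a b) (m : ℕ) :
    trace (z ^ (m + 2)) = trace z * trace (z ^ (m + 1)) - norm z * trace (z ^ m) := by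
  have h : z ^ (m + 2) = trace z • z ^ (m + 1) - norm z • z ^ m := by
    rw [pow_add, sq_eq_trace_smul_sub_norm, mul_sub, mul_smul_comm, ← pow_succ,
      Algebra.smul_def (norm z), mul_comm (z ^ m)]
  rw [h, map_sub, map_smul, map_smul, smul_eq_mul, smul_eq_mul]

theorem dvd_trace_pow_succ (z : QuadraticAlgebra R a b) (T : R) (ht : T ∣ trace z)
    (hn : T ∣ norm z) (m : ℕ) : T ∣ trace (z ^ (m + 1)) := by
  cases m with
  | zero => simpa using ht
  | succ m =>
    rw [trace_pow_add_two]
    exact dvd_sub (Dvd.dvd.mul_right ht _) (Dvd.dvd.mul_right hn _)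

theorem sq_dvd_trace_pow (z : QuadraticAlgebra R a b) (T : R) (ht : T ∣ trace z)
    (hn : T ∣ norm z) (m : ℕ) : T ^ 2 ∣ trace (z ^ (m + 3)) := by
  rw [show m + 3 = (m + 1) + 2 from rfl, trace_pow_add_two, sq]
  exact dvd_sub (mul_dvd_mul ht (dvd_trace_pow_succ z T ht hn (m + 1)))
    (mul_dvd_mul hn (dvd_trace_pow_succ z T ht hn m))

theorem norm_pow_sub_star (z : QuadraticAlgebra R a b) (q : ℕ) :
    norm (z ^ q - star z) = norm z ^ q - trace (z ^ (q + 1)) + norm z := by
  have h : algebraMap R (QuadraticAlgebra R a b) (norm (z ^ q - star z)) =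
      algebraMap R (QuadraticAlgebra R a b) (norm z ^ q - trace (z ^ (q + 1)) + norm z) := by
    rw [algebraMap_norm_eq_mul_star, map_add, map_sub, map_pow, algebraMap_norm_eq_mul_star,
      algebraMap_trace_eq_add_star, star_sub, star_pow, star_star, star_pow]
    ring
  have := congrArg QuadraticAlgebra.re h
  rwa [algebraMap_re, algebraMap_re] at this

end Abs

end LocalDouble

variable {k : Type*} [Field k]

theorem Nm_of_double [Fintype k] (W : WeierstrassCurve k) (hΔ : W.Δ ≠ 0) (c y₁ : k)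
    (h₁ : y₁ ^ 2 = (fpol W).eval c + (bpol W).eval c * y₁) (h2 : 2 * y₁ = (bpol W).eval c) :
    (X - C c) ∣ Nm W ∧ ¬ (X - C c) ^ 2 ∣ Nm W := by
  classical
  obtain ⟨T, hT⟩ : ∃ T : k[X], T = X - C c := ⟨_, rfl⟩
  obtain ⟨q, hq⟩ : ∃ q : ℕ, q = Fintype.card k := ⟨_, rfl⟩
  obtain ⟨z, hz⟩ : ∃ z : QB W, z = ω - algebraMap k[X] (QB W) (C y₁) := ⟨_, rfl⟩
  rw [← hT]
  have hgel : gel W = z ^ q - star z := by
    have e : algebraMap k[X] (QB W) (C y₁) = algebraMap k (QB W) y₁ :=
      (IsScalarTower.algebraMap_apply k k[X] (QB W) y₁).symm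
    have h1 : z ^ q = ω ^ q - algebraMap k[X] (QB W) (C y₁) := by
      have h := map_sub (FiniteField.frobeniusAlgHom k (QB W)) ω (algebraMap k (QB W) y₁)
      rw [AlgHom.commutes] at h
      rw [hz, e, hq]
      exact h
    have h3 : star z = star ω - algebraMap k[X] (QB W) (C y₁) := by
      rw [hz, star_sub]
      congr 1
      ext <;> simp
    rw [gel, h1, h3, hq]
    ring
  have htr : QuadraticAlgebra.trace z = bpol W - C ((bpol W).eval c) := by
    rw [hz, map_sub, QuadraticAlgebra.trace_omega, QuadraticAlgebra.trace_algebraMap, ← h2, C_mul]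
    rfl
  have hnorm : QuadraticAlgebra.norm z = C y₁ ^ 2 - bpol W * C y₁ - fpol W := by
    rw [hz, QuadraticAlgebra.norm_def]
    simp
    ring
  have ht : T ∣ QuadraticAlgebra.trace z := by
    rw [htr, hT, dvd_iff_isRoot]
    simp
  have hn : T ∣ QuadraticAlgebra.norm z := by
    rw [hnorm, hT, dvd_iff_isRoot]
    simp only [IsRoot.def, eval_sub, eval_pow, eval_C, eval_mul]
    rw [h₁]
    ring
  have hq2 : 2 ≤ q := by
    rw [hq]
    exact Fintype.one_lt_card
  obtain ⟨m, hm⟩ : ∃ m, q + 1 = m + 3 := ⟨q - 2, by omega⟩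
  have hs : T ^ 2 ∣ QuadraticAlgebra.trace (z ^ (q + 1)) := by
    rw [hm]
    exact LocalDouble.sq_dvd_trace_pow z T ht hn m
  have hnq : T ^ 2 ∣ QuadraticAlgebra.norm z ^ q :=
    (pow_dvd_pow_of_dvd hn 2).trans (pow_dvd_pow _ hq2)
  have hNm : Nm W = QuadraticAlgebra.norm z ^ q - QuadraticAlgebra.trace (z ^ (q + 1)) +
      QuadraticAlgebra.norm z := by
    rw [Nm, hgel, LocalDouble.norm_pow_sub_star]
  have hTT : T ∣ T ^ 2 := dvd_pow_self T two_ne_zero
  refine ⟨?_, ?_⟩
  · rw [hNm]
    exact dvd_add (dvd_sub (hTT.trans hnq) (hTT.trans hs)) hn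
  · intro hdvd
    have h3 : T ^ 2 ∣ QuadraticAlgebra.norm z := by
      have h4 := dvd_sub hdvd (dvd_sub hnq hs)
      rw [hNm, add_sub_cancel_left] at h4
      exact h4
    obtain ⟨g, hg⟩ := h3
    have hder : (derivative (QuadraticAlgebra.norm z)).eval c = 0 := by
      rw [hg, hT]
      simp [derivative_mul, derivative_pow]
    rw [hnorm] at hder
    have h5 : W.a₁ * y₁ = 3 * c ^ 2 + 2 * W.a₂ * c + W.a₄ := by
      simp [fpol, bpol, derivative_pow] at hder
      linear_combination hder
    have heq : W.toAffine.Equation c y₁ := by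
      rw [equation_iff]
      simp [fpol, bpol] at h₁
      linear_combination h₁
    have hns := (equation_iff_nonsingular_of_Δ_ne_zero hΔ).1 heq
    rw [nonsingular_iff] at hns
    rcases hns.2 with h | h
    · exact h h5
    · apply h
      simp [bpol] at h2
      linear_combination h2

end Fermat.Agent.Lib.FrobCHGen
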