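import Fermat.Agent.Lib.FrobCHGen.QMap
import Fermat.Agent.Lib.FrobCH.FrobSub

/-!
# FrobCHGen, Q4a: `Nm W` vanishes to order at least two at an inert fibre
-/

set_option autoImplicit false

namespace Fermat.Agent.Lib.FrobCHGen

open Polynomial WeierstrassCurve WeierstrassCurve.Affine
open Fermat.Agent.Lib.FrobCH (hdeg hgt frob IsConst IsX dmax pol)
open Fermat.Agent.Lib.FrobCHGen
open scoped QuadraticAlgebra

variable {k : Type*} [Field k]

/-- In a quadratic field extension `k[ω]` of a finite field, `ω ^ q` is the conjugate of `ω`. -/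
theorem LocalInert.omega_pow_card [Fintype k] (a b : k) [Fact (∀ r : k, r ^ 2 ≠ a + b * r)] :
    (ω : QuadraticAlgebra k a b) ^ Fintype.card k = star ω := by
  set u : QuadraticAlgebra k a b := ω ^ Fintype.card k with hu
  have hφ : ∀ z : QuadraticAlgebra k a b,
      FiniteField.frobeniusAlgHom k (QuadraticAlgebra k a b) z = z ^ Fintype.card k := fun z => rfl
  -- `u` is a root of the same equation
  have h1 : u * u = algebraMap k _ a + algebraMap k _ b * u := by
    have h := congrArg (FiniteField.frobeniusAlgHom k (QuadraticAlgebra k a b))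
      (QuadraticAlgebra.omega_mul_omega_eq_algebraMap (a := a) (b := b))
    rw [map_mul, map_add, map_mul, AlgHom.commutes, AlgHom.commutes, hφ] at h
    exact h
  have h2 : (ω : QuadraticAlgebra k a b) + star ω = algebraMap k _ b := by
    rw [← QuadraticAlgebra.algebraMap_trace_eq_add_star, QuadraticAlgebra.trace_omega]
  have h3 : (ω : QuadraticAlgebra k a b) * star ω = - algebraMap k _ a := by
    rw [← QuadraticAlgebra.algebraMap_norm_eq_mul_star, ← map_neg]
    congr 1
    simp [QuadraticAlgebra.norm_def]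
  have h4 : (u - ω) * (u - star ω) = 0 := by
    linear_combination h1 - u * h2 + h3
  rcases mul_eq_zero.1 h4 with h5 | h5
  · exfalso
    have h6 := congrArg (Polynomial.aeval (ω : QuadraticAlgebra k a b))
      (Fermat.Agent.Lib.FrobCH.FrobSub.prod_X_sub_C (k := k))
    rw [map_prod] at h6
    simp only [map_sub, map_pow, aeval_X, aeval_C] at h6
    rw [← hu, h5] at h6
    obtain ⟨c, -, hc⟩ := Finset.prod_eq_zero_iff.mp h6
    have h7 := congrArg QuadraticAlgebra.im hc
    simp at h7
  · exact sub_eq_zero.1 h5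

theorem sq_dvd_Nm_of_inert [Fintype k] (W : WeierstrassCurve k) (c : k)
    (h : ∀ y : k, y ^ 2 ≠ (fpol W).eval c + (bpol W).eval c * y) :
    (X - C c) ^ 2 ∣ Nm W := by
  have : Fact (∀ r : k, r ^ 2 ≠ (fpol W).eval c + (bpol W).eval c * r) := ⟨h⟩
  refine sq_dvd_norm_of_evC_eq_zero W c (gel W) ?_
  rw [gel, map_sub, map_pow, evC_star, evC_omega, LocalInert.omega_pow_card, sub_self]

end Fermat.Agent.Lib.FrobCHGen
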