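import Fermat.Agent.Lib.FrobCHGen.QMap

/-!
# FrobCHGen, Q4a: `Nm W` does not vanish at a split fibre
-/

set_option autoImplicit false

namespace Fermat.Agent.Lib.FrobCHGen

open Polynomial WeierstrassCurve WeierstrassCurve.Affine
open Fermat.Agent.Lib.FrobCH (hdeg hgt frob IsConst IsX dmax pol)
open Fermat.Agent.Lib.FrobCHGen
open scoped QuadraticAlgebra

variable {k : Type*} [Field k]

/-- the value of `Nm W` at `c`, in terms of a point of the fibre. -/
theorem LocalSplit.eval_Nm [Fintype k] (W : WeierstrassCurve k) (c y₁ : k)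
    (h₁ : y₁ ^ 2 = (fpol W).eval c + (bpol W).eval c * y₁) :
    (Nm W).eval c = (2 * y₁ - (bpol W).eval c) * ((bpol W).eval c - 2 * y₁) := by
  obtain ⟨e, he, hω, hs⟩ := exists_evalPt W c y₁ (by
    rw [← Polynomial.coe_aeval_eq_eval] at h₁
    exact h₁)
  have h := congrArg e (QuadraticAlgebra.algebraMap_norm_eq_mul_star (gel W))
  rw [he, map_mul] at h
  have e1 : e (gel W) = 2 * y₁ - (bpol W).eval c := by
    rw [gel, map_sub, map_pow, hω, hs, FiniteField.pow_card, Polynomial.coe_aeval_eq_eval]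
    ring
  have e2 : e (star (gel W)) = (bpol W).eval c - 2 * y₁ := by
    rw [gel, star_sub, star_pow, star_star, map_sub, map_pow, hω, hs, FiniteField.pow_card,
      Polynomial.coe_aeval_eq_eval]
    ring
  rw [e1, e2, Polynomial.coe_aeval_eq_eval] at h
  exact h

theorem Nm_eval_ne_zero_of_split [Fintype k] (W : WeierstrassCurve k) (c y₁ y₂ : k)
    (h₁ : y₁ ^ 2 = (fpol W).eval c + (bpol W).eval c * y₁)
    (h₂ : y₂ ^ 2 = (fpol W).eval c + (bpol W).eval c * y₂) (hne : y₁ ≠ y₂) :
    (Nm W).eval c ≠ 0 := by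
  have h3 : (y₁ - y₂) * (y₁ + y₂ - (bpol W).eval c) = 0 := by
    linear_combination h₁ - h₂
  have h4 : y₁ + y₂ - (bpol W).eval c = 0 :=
    (mul_eq_zero.1 h3).resolve_left (sub_ne_zero.2 hne)
  have h5 : (bpol W).eval c = y₁ + y₂ := (sub_eq_zero.1 h4).symm
  rw [LocalSplit.eval_Nm W c y₁ h₁, h5]
  refine mul_ne_zero ?_ ?_
  · intro h
    exact hne (by linear_combination h)
  · intro h
    exact hne (by linear_combination -h)

end Fermat.Agent.Lib.FrobCHGen
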