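import Fermat.Agent.Lib.FrobCHGen.LocalCore
import Fermat.Agent.Lib.FrobCHGen.LocalSplit
import Fermat.Agent.Lib.FrobCHGen.LocalInert
import Fermat.Agent.Lib.FrobCHGen.LocalDouble

/-!
# FrobCHGen Q4c: the order of vanishing of `Nm W` at `x = c` (proofs helper274; promoted from
`WIP/Local.lean`).
-/

set_option autoImplicit false

namespace Fermat.Agent.Lib.FrobCHGen

open Polynomial WeierstrassCurve WeierstrassCurve.Affine
open scoped QuadraticAlgebra

variable {k : Type*} [Field k]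

theorem pow_ecan_dvd_Nm [Fintype k] (W : WeierstrassCurve k) (hΔ : W.Δ ≠ 0) (c : k) :
    (X - C c) ^ ecan W c ∣ Nm W :=
  pow_ecan_dvd_Nm_of W c (sq_dvd_Nm_of_inert W c)
    (fun y₁ h₁ h2 => Nm_of_double W hΔ c y₁ h₁ h2)

theorem not_pow_succ_dvd_Nm [Fintype k] (W : WeierstrassCurve k) (hΔ : W.Δ ≠ 0) (c : k)
    (hc : ecan W c < 2) : ¬ (X - C c) ^ (ecan W c + 1) ∣ Nm W :=
  not_pow_succ_dvd_Nm_of W c (Nm_eval_ne_zero_of_split W c)
    (fun y₁ h₁ h2 => Nm_of_double W hΔ c y₁ h₁ h2) hc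

end Fermat.Agent.Lib.FrobCHGen
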