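import Fermat.Agent.Lib.FrobCHGen.Field

/-!
# FrobCHGen Q3: the numerator of Manin's fraction is monic of degree `2 q + 1`
-/

set_option autoImplicit false

namespace Fermat.Agent.Lib.FrobCHGen

open Polynomial WeierstrassCurve WeierstrassCurve.Affine
open scoped QuadraticAlgebra

variable {k : Type*} [Field k]

theorem NumDeg_omega_mul_star (W : WeierstrassCurve k) :
    (ω : QB W) * star ω = algebraMap k[X] (QB W) (-fpol W) := by
  ext <;> simp

theorem NumDeg_neg_pow_card [Fintype k] (p : k[X]) :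
    (-p) ^ Fintype.card k = -p ^ Fintype.card k := by
  have h1 : (-1 : k) ^ Fintype.card k = -1 := FiniteField.pow_card _
  have h2 : (-p) = C (-1 : k) * p := by simp
  rw [h2, mul_pow, ← C_pow, h1]
  simp

theorem neg_Nm_eq [Fintype k] (W : WeierstrassCurve k) :
    - Nm W = fpol W ^ Fintype.card k + fpol W
      + QuadraticAlgebra.trace ((ω : QB W) ^ (Fintype.card k + 1)) := by
  apply QuadraticAlgebra.algebraMap_injective (a := fpol W) (b := bpol W)
  have h0 := NumDeg_omega_mul_star W
  have h1 : ((ω : QB W) * star ω) ^ Fintype.card k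
      = algebraMap k[X] (QB W) (-fpol W ^ Fintype.card k) := by
    rw [h0, ← map_pow, NumDeg_neg_pow_card]
  rw [map_neg, map_add, map_add, Nm, QuadraticAlgebra.algebraMap_norm_eq_mul_star,
    QuadraticAlgebra.algebraMap_trace_eq_add_star, gel, star_sub, star_pow, star_star, star_pow]
  rw [map_neg] at h0 h1
  have h0' : algebraMap k[X] (QB W) (fpol W) = -((ω : QB W) * star ω) := by rw [h0, neg_neg]
  have h1' : algebraMap k[X] (QB W) (fpol W ^ Fintype.card k)
      = -(((ω : QB W) * star ω) ^ Fintype.card k) := by rw [h1, neg_neg]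
  rw [h0', h1']
  ring

theorem NumDeg_pow_aux (W : WeierstrassCurve k) (m : ℕ) :
    2 * ((ω : QB W) ^ m).re.natDegree ≤ 3 * m ∧
      (((ω : QB W) ^ m).im = 0 ∨ 2 * ((ω : QB W) ^ m).im.natDegree + 3 ≤ 3 * m) := by
  have hf := natDegree_fpol W
  have hb := natDegree_bpol_le W
  induction m with
  | zero => simp
  | succ m ih =>
    obtain ⟨ih1, ih2⟩ := ih
    have hre : ((ω : QB W) ^ (m + 1)).re = fpol W * ((ω : QB W) ^ m).im := by
      rw [pow_succ]; simp
    have him : ((ω : QB W) ^ (m + 1)).im = ((ω : QB W) ^ m).re + bpol W * ((ω : QB W) ^ m).im := by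
      rw [pow_succ]; simp
    rw [hre, him]
    rcases ih2 with h0 | h2
    · rw [h0]
      simp only [mul_zero, natDegree_zero, add_zero]
      exact ⟨by omega, Or.inr (by omega)⟩
    · constructor
      · have := natDegree_mul_le (p := fpol W) (q := ((ω : QB W) ^ m).im)
        omega
      · right
        have h3 := natDegree_mul_le (p := bpol W) (q := ((ω : QB W) ^ m).im)
        have h4 := natDegree_add_le (((ω : QB W) ^ m).re) (bpol W * ((ω : QB W) ^ m).im)
        rcases le_max_iff.1 h4 with h5 | h5 <;> omega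

theorem natDegree_trace_pow_le (W : WeierstrassCurve k) (m : ℕ) :
    2 * (QuadraticAlgebra.trace ((ω : QB W) ^ m)).natDegree ≤ 3 * m := by
  obtain ⟨h1, h2⟩ := NumDeg_pow_aux W m
  have hb := natDegree_bpol_le W
  rw [QuadraticAlgebra.trace_def]
  have h2C : (2 : k[X]) = C 2 := (map_ofNat C 2).symm
  have h3 : (2 * ((ω : QB W) ^ m).re).natDegree ≤ ((ω : QB W) ^ m).re.natDegree := by
    rw [h2C]; exact natDegree_C_mul_le _ _
  rcases h2 with h0 | h2
  · rw [h0, mul_zero, add_zero]
    omega
  · have h4 := natDegree_mul_le (p := bpol W) (q := ((ω : QB W) ^ m).im)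
    have h5 := natDegree_add_le (2 * ((ω : QB W) ^ m).re) (bpol W * ((ω : QB W) ^ m).im)
    rcases le_max_iff.1 h5 with h6 | h6 <;> omega

theorem fpol_pow_card [Fintype k] (W : WeierstrassCurve k) :
    fpol W ^ Fintype.card k = X ^ (3 * Fintype.card k) + C W.a₂ * X ^ (2 * Fintype.card k)
      + C W.a₄ * X ^ Fintype.card k + C W.a₆ := by
  rw [← FiniteField.expand_card]
  simp only [fpol, map_add, map_mul, map_pow, expand_X, expand_C]
  ring

theorem NumDeg_Num_eq [Fintype k] (W : WeierstrassCurve k) :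
    Num W = X ^ (2 * Fintype.card k + 1) +
      (X ^ (Fintype.card k + 2) - X ^ 3 + C 2 * (C W.a₂ * X ^ (Fintype.card k + 1))
        - C W.a₂ * X ^ 2 + C W.a₄ * X ^ Fintype.card k + C W.a₆ + fpol W
        + QuadraticAlgebra.trace ((ω : QB W) ^ (Fintype.card k + 1))) := by
  have h2C : (C 2 : k[X]) = 2 := map_ofNat C 2
  unfold Num
  rw [neg_Nm_eq, fpol_pow_card, h2C]
  ring

theorem Num_monic_natDegree [Fintype k] (W : WeierstrassCurve k) :
    (Num W).Monic ∧ (Num W).natDegree = 2 * Fintype.card k + 1 := by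
  have hq : 1 < Fintype.card k := Fintype.one_lt_card
  have hf := natDegree_fpol W
  have ht := natDegree_trace_pow_le W (Fintype.card k + 1)
  have hR : (X ^ (Fintype.card k + 2) - X ^ 3 + C 2 * (C W.a₂ * X ^ (Fintype.card k + 1))
        - C W.a₂ * X ^ 2 + C W.a₄ * X ^ Fintype.card k + C W.a₆ + fpol W
        + QuadraticAlgebra.trace ((ω : QB W) ^ (Fintype.card k + 1)) : k[X]).natDegree
      ≤ 2 * Fintype.card k := by
    refine natDegree_add_le_of_degree_le (natDegree_add_le_of_degree_le
      (natDegree_add_le_of_degree_le (natDegree_add_le_of_degree_le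
      ((natDegree_sub_le _ _).trans (max_le (natDegree_add_le_of_degree_le
      ((natDegree_sub_le _ _).trans (max_le ?_ ?_)) ?_) ?_)) ?_) ?_) ?_) ?_
    · rw [natDegree_X_pow]; omega
    · rw [natDegree_X_pow]; omega
    · refine (natDegree_C_mul_le _ _).trans ((natDegree_C_mul_le _ _).trans ?_)
      rw [natDegree_X_pow]; omega
    · refine (natDegree_C_mul_le _ _).trans ?_
      rw [natDegree_X_pow]; omega
    · refine (natDegree_C_mul_le _ _).trans ?_
      rw [natDegree_X_pow]; omega
    · rw [natDegree_C]; omega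
    · omega
    · omega
  have hdeg : (X ^ (Fintype.card k + 2) - X ^ 3 + C 2 * (C W.a₂ * X ^ (Fintype.card k + 1))
        - C W.a₂ * X ^ 2 + C W.a₄ * X ^ Fintype.card k + C W.a₆ + fpol W
        + QuadraticAlgebra.trace ((ω : QB W) ^ (Fintype.card k + 1)) : k[X]).degree
        < ((2 * Fintype.card k + 1 : ℕ) : WithBot ℕ) := by
    refine lt_of_le_of_lt (degree_le_of_natDegree_le hR) ?_
    exact_mod_cast Nat.lt_succ_self _
  rw [NumDeg_Num_eq]
  refine ⟨monic_X_pow_add hdeg, ?_⟩
  rw [natDegree_add_eq_left_of_natDegree_lt]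
  · rw [natDegree_X_pow]
  · rw [natDegree_X_pow]; omega

end Fermat.Agent.Lib.FrobCHGen
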