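import Fermat.Agent.Lib.FrobCHGen.CountDegAbs
import Fermat.Agent.Lib.FrobCHGen.NumDeg
import Fermat.Agent.Lib.FrobCHGen.Local

/-!
# FrobCHGen Q5: the degree of Manin's fraction (proofs helper277; promoted from `WIP/CountDeg.lean`).
-/

set_option autoImplicit false

namespace Fermat.Agent.Lib.FrobCHGen

open Polynomial WeierstrassCurve WeierstrassCurve.Affine
open Fermat.Agent.Lib.FrobCH (hdeg hgt frob IsConst IsX dmax pol)
open scoped QuadraticAlgebra

variable {k : Type*} [Field k]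

theorem hdeg_Rex_X_add_sum_ecan [Fintype k] (W : WeierstrassCurve k) (hΔ : W.Δ ≠ 0) :
    hdeg (Rex W (RatFunc.X : RatFunc k)) + ∑ c : k, ecan W c = 2 * Fintype.card k + 1 :=
  CountDegAbs.hdeg_Rex_X_add_sum_ecan_of W (Num_monic_natDegree W)
    (pow_ecan_dvd_Nm W hΔ) (not_pow_succ_dvd_Nm W hΔ)

end Fermat.Agent.Lib.FrobCHGen
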