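import Fermat.Agent.Lib.FrobCHGen.Field
import Fermat.Agent.Lib.FrobCH.Height
import Fermat.Agent.Lib.FrobCH.CountDeg

/-!
# FrobCHGen, Q5 (abstract part): the degree of a fraction `Nu / (X^q - X)²`

`hdeg_div_sq_add_sum` is the abstract core of the computation of the height of Manin's fraction;
`CountDegAbs.hdeg_Rex_X_add_sum_ecan_of` is the application to `Rex W X`, with the facts on `Num W`
and `Nm W` (nodes Q3, Q4) as hypotheses.
-/

set_option autoImplicit false

namespace Fermat.Agent.Lib.FrobCHGen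

open Polynomial WeierstrassCurve WeierstrassCurve.Affine
open Fermat.Agent.Lib.FrobCH (hdeg hgt frob IsConst IsX dmax pol)
open scoped QuadraticAlgebra

variable {k : Type*} [Field k]

theorem hdeg_div_sq_add_sum [Fintype k] (Nu : k[X]) (e : k → ℕ) (hm : Nu.Monic)
    (hd : Nu.natDegree = 2 * Fintype.card k + 1) (he : ∀ c, e c ≤ 2)
    (h1 : ∀ c, (X - C c) ^ e c ∣ Nu) (h2 : ∀ c, e c < 2 → ¬ (X - C c) ^ (e c + 1) ∣ Nu) :
    hdeg (algebraMap k[X] (RatFunc k) Nu /
        algebraMap k[X] (RatFunc k) ((X ^ Fintype.card k - X) ^ 2)) + ∑ c : k, e c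
      = 2 * Fintype.card k + 1 := by
  classical
  set g : k[X] := ∏ c : k, (X - C c) ^ e c with hg
  set D' : k[X] := ∏ c : k, (X - C c) ^ (2 - e c) with hD'
  have hgD : g * D' = (X ^ Fintype.card k - X) ^ 2 := by
    rw [← Fermat.Agent.Lib.FrobCH.countDeg_prod_X_sub_C, ← Finset.prod_pow, hg, hD',
      ← Finset.prod_mul_distrib]
    refine Finset.prod_congr rfl fun c _ => ?_
    rw [← pow_add]
    congr 1
    have := he c
    omega
  have hgN : g ∣ Nu := by
    refine Finset.prod_dvd_of_coprime ?_ fun c _ => h1 c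
    intro a _ b _ hab
    exact (pairwise_coprime_X_sub_C (s := fun c : k => c) Function.injective_id hab).pow
  obtain ⟨N', hN'⟩ := hgN
  have hcop : IsCoprime N' D' := by
    refine IsCoprime.prod_right fun c _ => ?_
    by_cases hc : e c < 2
    · refine IsCoprime.pow_right ?_
      refine IsCoprime.symm ?_
      rw [(irreducible_X_sub_C c).coprime_iff_not_dvd]
      intro hdvd
      apply h2 c hc
      rw [hN', pow_succ]
      exact mul_dvd_mul (Finset.dvd_prod_of_mem (fun c : k => (X - C c) ^ e c)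
        (Finset.mem_univ c)) hdvd
    · have h : 2 - e c = 0 := by omega
      rw [h, pow_zero]
      exact isCoprime_one_right
  have hgmon : g.Monic := monic_prod_of_monic _ _ fun c _ => (monic_X_sub_C c).pow _
  have hDmon : D'.Monic := monic_prod_of_monic _ _ fun c _ => (monic_X_sub_C c).pow _
  have hgdeg : g.natDegree = ∑ c : k, e c := by
    rw [hg, natDegree_prod_of_monic _ _ fun c _ => (monic_X_sub_C c).pow _]
    refine Finset.sum_congr rfl fun c _ => ?_
    rw [natDegree_pow, natDegree_X_sub_C, mul_one]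
  have hg0 : g ≠ 0 := hgmon.ne_zero
  have hD0 : D' ≠ 0 := hDmon.ne_zero
  have hN0 : N' ≠ 0 := by
    rintro rfl
    rw [mul_zero] at hN'
    exact hm.ne_zero hN'
  have d1 : g.natDegree + N'.natDegree = 2 * Fintype.card k + 1 := by
    rw [← natDegree_mul hg0 hN0, ← hN', hd]
  have d2 : g.natDegree + D'.natDegree = 2 * Fintype.card k := by
    rw [← natDegree_mul hg0 hD0, hgD, natDegree_pow,
      FiniteField.X_pow_card_sub_X_natDegree_eq k Fintype.one_lt_card]
  have hinj : Function.Injective (algebraMap k[X] (RatFunc k)) :=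
    IsFractionRing.injective k[X] (RatFunc k)
  have hg' : algebraMap k[X] (RatFunc k) g ≠ 0 := by
    intro h
    exact hg0 (hinj (by rw [h, map_zero]))
  have hR : algebraMap k[X] (RatFunc k) Nu /
        algebraMap k[X] (RatFunc k) ((X ^ Fintype.card k - X) ^ 2) =
      algebraMap k[X] (RatFunc k) N' / algebraMap k[X] (RatFunc k) D' := by
    rw [← hgD, hN', map_mul, map_mul, mul_div_mul_left _ _ hg']
  rw [hR, Fermat.Agent.Lib.FrobCH.hdeg_div_of_isCoprime hD0 hcop, ← hgdeg]
  unfold dmax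
  omega

/-- `Rex W X` as a quotient of polynomials -/
theorem CountDegAbs.Rex_X_eq [Fintype k] (W : WeierstrassCurve k) :
    Rex W (RatFunc.X : RatFunc k) =
      algebraMap k[X] (RatFunc k) (Num W) /
        algebraMap k[X] (RatFunc k) ((X ^ Fintype.card k - X) ^ 2) := by
  have h1 : aeval (RatFunc.X : RatFunc k) (Num W) = algebraMap k[X] (RatFunc k) (Num W) := by
    rw [← RatFunc.algebraMap_X, aeval_algebraMap_apply, aeval_X_left_apply]
  have h2 : algebraMap k[X] (RatFunc k) ((X ^ Fintype.card k - X) ^ 2)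
      = ((RatFunc.X : RatFunc k) ^ Fintype.card k - RatFunc.X) ^ 2 := by
    simp only [map_sub, map_pow, RatFunc.algebraMap_X]
  unfold Rex
  rw [h1, h2]

theorem CountDegAbs.ecan_le (W : WeierstrassCurve k) (c : k) : ecan W c ≤ 2 := by
  unfold ecan
  omega

/-- for `j ≤ 2`, `(X - c)^j` divides `Num W` iff it divides `Nm W` -/
theorem CountDegAbs.pow_dvd_Num_iff [Fintype k] (W : WeierstrassCurve k) (c : k) {j : ℕ}
    (hj : j ≤ 2) : (X - C c) ^ j ∣ Num W ↔ (X - C c) ^ j ∣ Nm W := by
  have htail : (X - C c) ^ j ∣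
      (C W.a₂ + X ^ Fintype.card k + X) * (X ^ Fintype.card k - X) ^ 2 :=
    Dvd.dvd.mul_left ((pow_dvd_pow _ hj).trans
      (pow_dvd_pow_of_dvd (Fermat.Agent.Lib.FrobCH.countDeg_X_sub_C_dvd c) 2)) _
  unfold Num
  rw [dvd_sub_left htail, dvd_neg]

/-- the height of Manin's fraction, from the facts of nodes Q3 and Q4 -/
theorem CountDegAbs.hdeg_Rex_X_add_sum_ecan_of [Fintype k] (W : WeierstrassCurve k)
    (hN : (Num W).Monic ∧ (Num W).natDegree = 2 * Fintype.card k + 1)
    (h1 : ∀ c : k, (X - C c) ^ ecan W c ∣ Nm W)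
    (h2 : ∀ c : k, ecan W c < 2 → ¬ (X - C c) ^ (ecan W c + 1) ∣ Nm W) :
    hdeg (Rex W (RatFunc.X : RatFunc k)) + ∑ c : k, ecan W c = 2 * Fintype.card k + 1 := by
  rw [CountDegAbs.Rex_X_eq]
  refine hdeg_div_sq_add_sum (Num W) (ecan W) hN.1 hN.2 (CountDegAbs.ecan_le W) (fun c => ?_)
    (fun c hc => ?_)
  · exact (CountDegAbs.pow_dvd_Num_iff W c (CountDegAbs.ecan_le W c)).2 (h1 c)
  · rw [CountDegAbs.pow_dvd_Num_iff W c (by omega)]
    exact h2 c hc

end Fermat.Agent.Lib.FrobCHGen
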