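import Mathlib
import Fermat.Agent.Lib.FrobCH.Defs

/-!
# Cayley-Hamilton for the Frobenius endomorphism of an elliptic curve over a finite field of
ARBITRARY characteristic (general Weierstrass equation): definitions.

The equation is written `y² = f(x) + b(x) y` with `f = x³ + a₂ x² + a₄ x + a₆`,
`b = -(a₁ x + a₃)`, and the coordinate ring / function field / fibres are the quadratic algebras
`QuadraticAlgebra R f b` over `R = k[X]`, `RatFunc k`, `k`.
-/

set_option autoImplicit false

namespace Fermat.Agent.Lib.FrobCHGen

open Polynomial WeierstrassCurve WeierstrassCurve.Affine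
open scoped QuadraticAlgebra

noncomputable section

variable {k : Type*} [Field k]

/-- the cubic `x³ + a₂ x² + a₄ x + a₆` -/
def fpol (W : WeierstrassCurve k) : k[X] := X ^ 3 + C W.a₂ * X ^ 2 + C W.a₄ * X + C W.a₆

/-- the linear polynomial `-(a₁ x + a₃)` -/
def bpol (W : WeierstrassCurve k) : k[X] := -(C W.a₁ * X + C W.a₃)

/-- the affine coordinate ring `k[x, y] / (y² = f + b y)` -/
abbrev QB (W : WeierstrassCurve k) : Type _ := QuadraticAlgebra k[X] (fpol W) (bpol W)

/-- the function field `k(x)[y] / (y² = f + b y)` -/
abbrev QL (W : WeierstrassCurve k) : Type _ :=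
  QuadraticAlgebra (RatFunc k) (algebraMap k[X] (RatFunc k) (fpol W))
    (algebraMap k[X] (RatFunc k) (bpol W))

/-- the fibre algebra `k[y] / (y² = f(c) + b(c) y)` -/
abbrev Qc (W : WeierstrassCurve k) (c : k) : Type _ :=
  QuadraticAlgebra k ((fpol W).eval c) ((bpol W).eval c)

/-- functoriality of quadratic algebras -/
def qmap {R S : Type*} [CommRing R] [CommRing S] (φ : R →+* S) (a b : R) :
    QuadraticAlgebra R a b →+* QuadraticAlgebra S (φ a) (φ b) where
  toFun z := ⟨φ z.re, φ z.im⟩
  map_one' := by ext <;> simp
  map_mul' z w := by ext <;> simp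
  map_zero' := by ext <;> simp
  map_add' z w := by ext <;> simp

/-- evaluation at `x = c` -/
def evC (W : WeierstrassCurve k) (c : k) : QB W →+* Qc W c := qmap (evalRingHom c) _ _

/-- the element `y^q - ȳ` of the coordinate ring -/
def gel [Fintype k] (W : WeierstrassCurve k) : QB W := ω ^ Fintype.card k - star ω

/-- its norm -/
def Nm [Fintype k] (W : WeierstrassCurve k) : k[X] := QuadraticAlgebra.norm (gel W)

/-- the numerator of Manin's fraction -/
def Num [Fintype k] (W : WeierstrassCurve k) : k[X] :=
  - Nm W - (C W.a₂ + X ^ Fintype.card k + X) * (X ^ Fintype.card k - X) ^ 2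

/-- Manin's expression: the `x`-coordinate of `frob η - η` for `η = (t, y)`. -/
def Rex [Fintype k] (W : WeierstrassCurve k) {K : Type*} [Field K] [Algebra k K] (t : K) : K :=
  aeval t (Num W) / (t ^ Fintype.card k - t) ^ 2

/-- the order of cancellation at `X - c` in Manin's fraction: `2` minus the number of points with
`x`-coordinate `c`. -/
def ecan (W : WeierstrassCurve k) (c : k) : ℕ :=
  2 - Nat.card {y : k // y ^ 2 = (fpol W).eval c + (bpol W).eval c * y}

/-- the origin, or a point whose `x`-coordinate is a rational function -/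
def XRat (k : Type*) [Field k] {L : Type*} [Field L] [Algebra (RatFunc k) L] {W : Affine L}
    (P : W.Point) : Prop :=
  P = 0 ∨ ∃ (x : RatFunc k) (y : L) (h : W.Nonsingular (algebraMap (RatFunc k) L x) y),
    P = .some _ _ h

end

end Fermat.Agent.Lib.FrobCHGen
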