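import Fermat.Agent.Lib.FrobCHGen.Defs

/-!
# The function field `QL W` is a field
-/

set_option autoImplicit false

namespace Fermat.Agent.Lib.FrobCHGen

open Polynomial WeierstrassCurve WeierstrassCurve.Affine
open scoped QuadraticAlgebra

noncomputable section

variable {k : Type*} [Field k]

theorem natDegree_fpol (W : WeierstrassCurve k) : (fpol W).natDegree = 3 := by
  unfold fpol
  compute_degree!

theorem natDegree_bpol_le (W : WeierstrassCurve k) : (bpol W).natDegree ≤ 1 := by
  unfold bpol
  compute_degree!

/-- no polynomial solves `p² = f + b p` -/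
theorem sq_ne_poly (W : WeierstrassCurve k) (p : k[X]) : p ^ 2 ≠ fpol W + bpol W * p := by
  intro h
  have hf : fpol W = p ^ 2 - bpol W * p := by rw [h]; ring
  have h3 := natDegree_fpol W
  have hb := natDegree_bpol_le W
  rcases le_or_gt p.natDegree 1 with hp | hp
  · have h1 : (p ^ 2 - bpol W * p).natDegree ≤ 2 := by
      refine (natDegree_sub_le _ _).trans (max_le ?_ ?_)
      · exact (natDegree_pow_le).trans (by omega)
      · exact (natDegree_mul_le).trans (by omega)
    rw [← hf] at h1
    omega
  · have h1 : (bpol W * p).natDegree < (p ^ 2).natDegree := by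
      rw [natDegree_pow]
      exact lt_of_le_of_lt natDegree_mul_le (by omega)
    have h2 : (p ^ 2 - bpol W * p).natDegree = (p ^ 2).natDegree :=
      natDegree_sub_eq_left_of_natDegree_lt h1
    rw [← hf, natDegree_pow] at h2
    omega

theorem sq_ne (W : WeierstrassCurve k) (r : RatFunc k) :
    r ^ 2 ≠ algebraMap k[X] (RatFunc k) (fpol W) + algebraMap k[X] (RatFunc k) (bpol W) * r := by
  intro h
  have hint : IsIntegral k[X] r := by
    refine ⟨X ^ 2 - C (bpol W) * X - C (fpol W), ?_, ?_⟩
    · monicity!
    · simp only [eval₂_sub, eval₂_pow, eval₂_X, eval₂_mul, eval₂_C]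
      rw [h]; ring
  obtain ⟨p, rfl⟩ := IsIntegrallyClosed.isIntegral_iff.mp hint
  apply sq_ne_poly W p
  apply IsFractionRing.injective k[X] (RatFunc k)
  rw [map_pow, map_add, map_mul, h]

instance instFactNoRoot (W : WeierstrassCurve k) :
    Fact (∀ r : RatFunc k, r ^ 2 ≠
      algebraMap k[X] (RatFunc k) (fpol W) + algebraMap k[X] (RatFunc k) (bpol W) * r) :=
  ⟨sq_ne W⟩

/-- conjugation of the function field, as a `k`-algebra homomorphism -/
def conjL (W : WeierstrassCurve k) : QL W →ₐ[k] QL W :=
  { starRingEnd (QL W) with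
    commutes' := fun c => by
      change star (algebraMap k (QL W) c) = algebraMap k (QL W) c
      ext <;> simp [Algebra.algebraMap_eq_smul_one] }

@[simp] theorem conjL_apply (W : WeierstrassCurve k) (z : QL W) : conjL W z = star z := rfl

/-- the subgroup of odd points: `σ P = -P` for the conjugation `σ` of `QL W` over `k(x)` -/
def oddSubgroup (W : WeierstrassCurve k) [DecidableEq (QL W)] : AddSubgroup (W⁄(QL W)).Point :=
  (Point.map (W' := W) (conjL W) + AddMonoidHom.id _).ker

theorem mem_oddSubgroup (W : WeierstrassCurve k) [DecidableEq (QL W)] (P : (W⁄(QL W)).Point) :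
    P ∈ oddSubgroup W ↔ Point.map (W' := W) (conjL W) P = -P := by
  rw [oddSubgroup, AddMonoidHom.mem_ker, AddMonoidHom.add_apply, AddMonoidHom.id_apply,
    add_eq_zero_iff_eq_neg]

example (W : WeierstrassCurve k) : IsScalarTower k (RatFunc k) (QL W) := inferInstance

end

end Fermat.Agent.Lib.FrobCHGen
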