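import Fermat.Agent.Lib.FrobCHGen.Field
import Fermat.Agent.Lib.FrobCH.FrobSub

/-!
# FrobCHGen, Q2: the `x`-coordinate of `frob η - η` for a point `η = (t, y)` of a general
Weierstrass curve.   Owner: helper57.
-/

set_option autoImplicit false

namespace Fermat.Agent.Lib.FrobCHGen

open Polynomial WeierstrassCurve WeierstrassCurve.Affine
open Fermat.Agent.Lib.FrobCH (hdeg hgt frob IsConst IsX dmax pol)
open scoped QuadraticAlgebra

variable {k : Type*} [Field k]

/-- evaluation of the coordinate ring at a point `(t, y)` -/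
noncomputable def FrobSub.evalPt (W : WeierstrassCurve k) {K : Type*} [CommRing K] [Algebra k K]
    (t y : K) (h : y ^ 2 = aeval t (fpol W) + aeval t (bpol W) * y) : QB W →+* K where
  toFun z := aeval t z.re + aeval t z.im * y
  map_one' := by simp
  map_mul' z w := by
    simp only [QuadraticAlgebra.re_mul, QuadraticAlgebra.im_mul, map_add, map_mul]
    linear_combination (-(aeval t z.im * aeval t w.im)) * h
  map_zero' := by simp
  map_add' z w := by
    simp only [QuadraticAlgebra.re_add, QuadraticAlgebra.im_add, map_add]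
    ring

theorem FrobSub.evalPt_apply (W : WeierstrassCurve k) {K : Type*} [CommRing K] [Algebra k K]
    (t y : K) (h : y ^ 2 = aeval t (fpol W) + aeval t (bpol W) * y) (z : QB W) :
    FrobSub.evalPt W t y h z = aeval t z.re + aeval t z.im * y := rfl

theorem aeval_Nm [Fintype k] (W : WeierstrassCurve k) {K : Type*} [CommRing K] [Algebra k K]
    (t y : K) (h : y ^ 2 = aeval t (fpol W) + aeval t (bpol W) * y) :
    aeval t (Nm W) =
      (y ^ Fintype.card k - (aeval t (bpol W) - y)) *
        ((aeval t (bpol W) - y) ^ Fintype.card k - y) := by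
  have e1 : ∀ p : k[X], FrobSub.evalPt W t y h (algebraMap k[X] (QB W) p) = aeval t p := by
    intro p
    rw [FrobSub.evalPt_apply]
    simp
  have e2 : FrobSub.evalPt W t y h ω = y := by
    rw [FrobSub.evalPt_apply]
    simp
  have e3 : FrobSub.evalPt W t y h (star ω) = aeval t (bpol W) - y := by
    rw [FrobSub.evalPt_apply]
    simp
    ring
  rw [← e1, Nm, QuadraticAlgebra.algebraMap_norm_eq_mul_star, map_mul, gel, star_sub, star_pow,
    star_star, map_sub, map_sub, map_pow, map_pow, e2, e3]

theorem frob_sub_eq [Fintype k] (W : WeierstrassCurve k) {K : Type*} [Field K] [Algebra k K]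
    [DecidableEq K] {t y : K} (h : (W⁄K).Nonsingular t y) (ht : t ^ Fintype.card k ≠ t) :
    ∃ (y' : K) (h' : (W⁄K).Nonsingular (Rex W t) y'),
      frob W K (.some t y h) - .some t y h = .some _ _ h' := by
  set q := Fintype.card k with hqdef
  have hf : aeval t (fpol W) = t ^ 3 + algebraMap k K W.a₂ * t ^ 2 + algebraMap k K W.a₄ * t
      + algebraMap k K W.a₆ := by
    simp [fpol]
  have hb : ∀ s : K, aeval s (bpol W) = -(algebraMap k K W.a₁ * s + algebraMap k K W.a₃) := by
    intro s
    simp [bpol]
  have hy : y ^ 2 = aeval t (fpol W) + aeval t (bpol W) * y := by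
    have := h.1
    rw [Affine.equation_iff] at this
    rw [hf, hb]
    simp only [WeierstrassCurve.baseChange, WeierstrassCurve.map_a₁, WeierstrassCurve.map_a₂,
      WeierstrassCurve.map_a₃, WeierstrassCurve.map_a₄, WeierstrassCurve.map_a₆] at this
    linear_combination this
  have hφ : ∀ z : K, FiniteField.frobeniusAlgHom k K z = z ^ q := fun z => rfl
  have hpow : (aeval t (bpol W) - y) ^ q = aeval (t ^ q) (bpol W) - y ^ q := by
    rw [← hφ, map_sub, ← Polynomial.aeval_algHom_apply, hφ, hφ]
  have hNm := aeval_Nm W t y hy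
  rw [← hqdef, hpow, hb, hb] at hNm
  have hNum : aeval t (Num W) = - aeval t (Nm W)
      - (algebraMap k K W.a₂ + t ^ q + t) * (t ^ q - t) ^ 2 := by
    simp [Num, hqdef]
  have hns : (W⁄K).Nonsingular (t ^ q) (y ^ q) :=
    (Affine.baseChange_nonsingular W (FiniteField.frobeniusAlgHom k K).injective ..).mpr h
  have hfrob : frob W K (.some t y h) = .some (t ^ q) (y ^ q) hns := rfl
  rw [hfrob, sub_eq_add_neg, Point.neg_some, Point.add_of_X_ne ht]
  have key : (W⁄K).addX (t ^ q) t ((W⁄K).slope (t ^ q) t (y ^ q) ((W⁄K).negY t y)) = Rex W t := by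
    rw [Affine.slope_of_X_ne ht]
    have hne : t ^ q - t ≠ 0 := sub_ne_zero.mpr ht
    rw [Rex, ← hqdef, hNum, hNm]
    simp only [Affine.addX, Affine.negY, WeierstrassCurve.baseChange, WeierstrassCurve.map_a₁,
      WeierstrassCurve.map_a₂, WeierstrassCurve.map_a₃]
    field_simp
    ring
  obtain ⟨h', he⟩ := Fermat.Agent.Lib.FrobCH.FrobSub.exists_some_eq key (Affine.nonsingular_add hns
    ((Affine.nonsingular_neg ..).mpr h) fun hxy => ht hxy.left)
  exact ⟨_, h', he⟩

theorem map_Rex [Fintype k] (W : WeierstrassCurve k) {K K' : Type*} [Field K] [Algebra k K]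
    [Field K'] [Algebra k K'] (f : K →ₐ[k] K') (t : K) : f (Rex W t) = Rex W (f t) := by
  simp [Rex, map_div₀, Polynomial.aeval_algHom_apply]

end Fermat.Agent.Lib.FrobCHGen
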