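import Fermat.Agent.Lib.FrobCHGen.FrobSub
import Fermat.Agent.Lib.FrobCHGen.CountDeg
import Fermat.Agent.Lib.FrobCHGen.CountCard
import Fermat.Agent.Lib.FrobCH.Hgt
import Fermat.Agent.Lib.FrobCH.Subst
import Fermat.Agent.Lib.FrobCH.FrobSub

/-!
# FrobCHGen, section Q9: heights of points with rational `x`-coordinate (proofs: helper185)

Promoted from `WIP/Hgt.lean`.
-/

set_option autoImplicit false
set_option linter.unusedSectionVars false

namespace Fermat.Agent.Lib.FrobCHGen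

open Polynomial WeierstrassCurve WeierstrassCurve.Affine
open Fermat.Agent.Lib.FrobCH (hdeg hgt frob IsConst IsX dmax pol)
open scoped QuadraticAlgebra

variable {k : Type*} [Field k]

section Hgt

variable {L : Type*} [Field L] [DecidableEq L] [Algebra k L] [Algebra (RatFunc k) L]
  [IsScalarTower k (RatFunc k) L]

theorem exists_isX {W : Affine L} {P : W.Point} (hP : XRat k P) :
    ∃ a b : k[X], IsX P a b ∧ dmax a b = hgt k P := by
  rcases hP with rfl | ⟨x, Y, h, rfl⟩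
  · refine ⟨1, 0, Fermat.Agent.Lib.FrobCH.isX_zero, ?_⟩
    have : hgt k (0 : W.Point) = 0 := rfl
    rw [this]
    simp [dmax]
  · exact ⟨x.num, x.denom, Fermat.Agent.Lib.FrobCH.isX_of_some x h,
      by rw [Fermat.Agent.Lib.FrobCH.hgt_some]; rfl⟩

theorem hgt_parallelogram (W : WeierstrassCurve k) (hΔ : W.Δ ≠ 0) {P Q : (W⁄L).Point}
    (hP : XRat k P) (hQ : XRat k Q) (hadd : XRat k (P + Q)) (hsub : XRat k (P - Q)) :
    hgt k (P + Q) + hgt k (P - Q) = 2 * hgt k P + 2 * hgt k Q := by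
  obtain ⟨a₁, b₁, h₁, e₁⟩ := exists_isX hP
  obtain ⟨a₂, b₂, h₂, e₂⟩ := exists_isX hQ
  obtain ⟨a₃, b₃, h₃, e₃⟩ := exists_isX hadd
  obtain ⟨a₄, b₄, h₄, e₄⟩ := exists_isX hsub
  rw [← e₁, ← e₂, ← e₃, ← e₄]
  exact Fermat.Agent.Lib.FrobCH.parallelogram W hΔ h₁ h₂ h₃ h₄

theorem hgt_frob [Fintype k] (W : WeierstrassCurve k) {P : (W⁄L).Point} (hP : XRat k P) :
    hgt k (frob W L P) = Fintype.card k * hgt k P := by
  rcases hP with rfl | ⟨x, Y, h, rfl⟩
  · rw [map_zero]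
    have : hgt k (0 : (W⁄L).Point) = 0 := rfl
    rw [this, mul_zero]
  · rw [Fermat.Agent.Lib.FrobCH.hgt_some]
    unfold Fermat.Agent.Lib.FrobCH.frob
    rw [Point.map_some, ← Fermat.Agent.Lib.FrobCH.hdeg_pow]
    apply Fermat.Agent.Lib.FrobCH.Hgt.hgt_some_of_eq
    rw [FiniteField.coe_frobeniusAlgHom, map_pow]

theorem hdeg_Rex_X [Fintype k] (W : WeierstrassCurve k) (hΔ : W.Δ ≠ 0) :
    hdeg (Rex W (RatFunc.X : RatFunc k)) = Nat.card W.toAffine.Point := by
  have h₁ := card_add_sum_ecan W hΔ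
  have h₂ := hdeg_Rex_X_add_sum_ecan W hΔ
  omega

theorem hgt_frob_sub [Fintype k] (W : WeierstrassCurve k) (hΔ : W.Δ ≠ 0)
    {g : RatFunc k} (hg : ¬ ∃ c : k, g = RatFunc.C c) {y' : L}
    (h : (W⁄L).Nonsingular (algebraMap (RatFunc k) L g) y') :
    hgt k (frob W L (.some _ _ h) - .some _ _ h) = Nat.card W.toAffine.Point * hdeg g := by
  have ht : (algebraMap (RatFunc k) L g) ^ Fintype.card k ≠ algebraMap (RatFunc k) L g := by
    intro e
    apply hg
    apply Fermat.Agent.Lib.FrobCH.eq_C_of_pow_card_eq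
    apply (algebraMap (RatFunc k) L).injective
    rw [map_pow, e]
  obtain ⟨y'', h'', e⟩ := frob_sub_eq W h ht
  rw [e]
  have e2 : Rex W (algebraMap (RatFunc k) L g) =
      algebraMap (RatFunc k) L (Fermat.Agent.Lib.FrobCH.subst g (Rex W RatFunc.X)) := by
    rw [map_Rex, Fermat.Agent.Lib.FrobCH.subst_X hg]
    exact (map_Rex W (IsScalarTower.toAlgHom k (RatFunc k) L) g).symm
  rw [Fermat.Agent.Lib.FrobCH.Hgt.hgt_some_of_eq _ h'' e2, Fermat.Agent.Lib.FrobCH.hdeg_subst hg,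
    hdeg_Rex_X W hΔ]

end Hgt

end Fermat.Agent.Lib.FrobCHGen
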