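import Fermat.Agent.Lib.FrobCHGen.Odd
import Fermat.Agent.Lib.FrobCHGen.Hgt
import Fermat.Agent.Lib.FrobCHGen.Const
import Fermat.Agent.Lib.FrobCH.GenericCH

/-!
# FrobCHGen, node Q11: the Cayley-Hamilton relation at the generic point, up to a constant point
(task FrobCHGen-Q11, helper68; port of `generic_CH'` of `Lib/FrobCH/GenericCH.lean`)
-/

set_option autoImplicit false

namespace Fermat.Agent.Lib.FrobCHGen

open Polynomial WeierstrassCurve WeierstrassCurve.Affine
open Fermat.Agent.Lib.FrobCH (hdeg hgt frob IsConst IsX dmax pol quad_zero hgt_some hdeg_X X_ne_C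
  hdeg_eq_zero_iff)
open scoped QuadraticAlgebra

variable {k : Type*} [Field k]

theorem generic_CH [Fintype k] (W : WeierstrassCurve k) (hΔ : W.Δ ≠ 0) [DecidableEq (QL W)]
    (h : (W⁄(QL W)).Nonsingular (algebraMap (RatFunc k) (QL W) RatFunc.X) ω) :
    IsConst
      (frob W (QL W) (frob W (QL W) (.some _ _ h))
        - ((Fintype.card k : ℤ) + 1 - (Nat.card W.toAffine.Point : ℤ)) •
            frob W (QL W) (.some _ _ h)
        + (Fintype.card k : ℤ) • (.some _ _ h)) := by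
  set η : (W⁄(QL W)).Point := .some _ _ h with hη
  set φ := frob W (QL W) with hφ
  set q := Fintype.card k with hq
  set N := Nat.card W.toAffine.Point with hN
  have xr : ∀ {P : (W⁄(QL W)).Point}, P ∈ oddSubgroup W → XRat k P :=
    fun hP => xRat_of_mem W hΔ hP
  have hηG : η ∈ oddSubgroup W := eta_mem W h
  have hφηG : φ η ∈ oddSubgroup W := frob_mem W hηG
  have hφφηG : φ (φ η) ∈ oddSubgroup W := frob_mem W hφηG
  have hh1 : hgt k η = 1 := by rw [hη, hgt_some, hdeg_X]
  have hh2 : hgt k (φ η) = q := by rw [hφ, hgt_frob W (xr hηG), hh1, mul_one]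
  have hh3 : hgt k (φ (φ η)) = q * q := by rw [hφ, hgt_frob W (xr hφηG), hh2]
  have hh4 : hgt k (φ η - η) = N := by
    rw [hη, hφ, hgt_frob_sub W hΔ X_ne_C h, hdeg_X, mul_one]
  have hh5 : hgt k (φ (φ η) - φ η) = q * N := by
    rw [← map_sub, hφ, hgt_frob W (xr ((oddSubgroup W).sub_mem hφηG hηG)), hh4]
  have hNle : N ≤ 2 * q + 1 := by
    have := card_add_sum_ecan W hΔ
    omega
  have hγG : φ η + η ∈ oddSubgroup W := (oddSubgroup W).add_mem hφηG hηG
  have hpar := hgt_parallelogram W hΔ (xr hφηG) (xr hηG) (xr hγG)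
    (xr ((oddSubgroup W).sub_mem hφηG hηG))
  rw [hh4, hh2, hh1] at hpar
  have hh6 : hgt k (φ (φ η) - η) = N * hgt k (φ η + η) := by
    rcases xr hγG with h0 | ⟨g, Y, hgY, e⟩
    · exfalso
      rw [h0] at hpar
      have : hgt k (0 : (W⁄(QL W)).Point) = 0 := rfl
      omega
    · have hgd : hgt k (φ η + η) = hdeg g := by rw [e, hgt_some]
      have hg : ¬ ∃ c : k, g = RatFunc.C c := by
        intro hc
        have := (hdeg_eq_zero_iff g).mpr hc
        omega
      have e' : φ (φ η) - η = φ (φ η + η) - (φ η + η) := by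
        rw [map_add]; abel
      rw [e', e, hφ, hgt_frob_sub W hΔ hg hgY, hgt_some]
  -- the quadratic form on the subgroup of odd points
  let hh : oddSubgroup W → ℤ := fun P => (hgt k P.1 : ℤ)
  have par : ∀ x y : oddSubgroup W, hh (x + y) + hh (x - y) = 2 * hh x + 2 * hh y := by
    intro x y
    have := hgt_parallelogram W hΔ (xr x.2) (xr y.2) (xr ((oddSubgroup W).add_mem x.2 y.2))
      (xr ((oddSubgroup W).sub_mem x.2 y.2))
    simp only [hh, AddSubgroup.coe_add, AddSubgroup.coe_sub]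
    exact_mod_cast this
  have key := quad_zero hh par ⟨η, hηG⟩ ⟨φ η, hφηG⟩ ⟨φ (φ η), hφφηG⟩ (q : ℤ)
    ((q : ℤ) + 1 - (N : ℤ)) (by simp [hh, hh1]) (by simp [hh, hh2])
    (by simp [hh, hh3]; ring)
    (by simp [hh, hh4])
    (by simp [hh, hh5])
    (by
      simp only [hh, AddSubgroup.coe_sub, hh6]
      have : (hgt k (φ η + η) : ℤ) = 2 * q + 2 - N := by
        have : (hgt k (φ η + η) : ℤ) + N = 2 * q + 2 * 1 := by exact_mod_cast hpar
        linarith
      push_cast
      rw [this]; ring)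
  have key' : hgt k (φ (φ η) - ((q : ℤ) + 1 - (N : ℤ)) • φ η + (q : ℤ) • η) = 0 := by
    have : hh (⟨φ (φ η), hφφηG⟩ - ((q : ℤ) + 1 - (N : ℤ)) • ⟨φ η, hφηG⟩ + (q : ℤ) • ⟨η, hηG⟩) =
        (hgt k (φ (φ η) - ((q : ℤ) + 1 - (N : ℤ)) • φ η + (q : ℤ) • η) : ℤ) := by
      simp [hh]
    rw [this] at key
    exact_mod_cast key
  refine const_of_hgt_eq_zero W hΔ ?_ key'
  exact ((oddSubgroup W).add_mem ((oddSubgroup W).sub_mem hφφηG
    ((oddSubgroup W).zsmul_mem hφηG _)) ((oddSubgroup W).zsmul_mem hηG _))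

end Fermat.Agent.Lib.FrobCHGen
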