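import Fermat.Agent.Lib.FrobCHGen.Field

/-!
# FrobCHGen, node Q7: embeddings of the function field `QL W`.
-/

set_option autoImplicit false

namespace Fermat.Agent.Lib.FrobCHGen

open Polynomial WeierstrassCurve WeierstrassCurve.Affine
open scoped QuadraticAlgebra

variable {k : Type*} [Field k]

theorem exists_hom (W : WeierstrassCurve k) {Ω : Type*} [Field Ω] [Algebra k Ω] (t y : Ω)
    (ht : Transcendental k t) (hy : y ^ 2 = aeval t (fpol W) + aeval t (bpol W) * y) :
    ∃ τ : QL W →ₐ[k] Ω, τ (algebraMap (RatFunc k) (QL W) RatFunc.X) = t ∧ τ ω = y := by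
  have hinj : Function.Injective (Polynomial.aeval (R := k) t) :=
    transcendental_iff_injective.mp ht
  let φ : RatFunc k →ₐ[k] Ω := RatFunc.liftAlgHom (S := k) (Polynomial.aeval t)
    (nonZeroDivisors_le_comap_nonZeroDivisors_of_injective _ hinj)
  have hφ : ∀ p : k[X], φ (algebraMap k[X] (RatFunc k) p) = Polynomial.aeval t p := by
    intro p
    have := RatFunc.liftAlgHom_apply_div (S := k) (Polynomial.aeval t)
      (nonZeroDivisors_le_comap_nonZeroDivisors_of_injective _ hinj) p 1
    simpa using this
  have hy' : y * y = φ (algebraMap k[X] (RatFunc k) (fpol W)) +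
      φ (algebraMap k[X] (RatFunc k) (bpol W)) * y := by
    rw [hφ, hφ, ← sq, hy]
  let τ : QL W →ₐ[k] Ω :=
    { toFun := fun z => φ z.re + φ z.im * y
      map_one' := by simp
      map_mul' := fun z w => by
        simp only [QuadraticAlgebra.re_mul, QuadraticAlgebra.im_mul, map_add, map_mul]
        linear_combination (-(φ z.im * φ w.im)) * hy'
      map_zero' := by simp
      map_add' := fun z w => by
        simp only [QuadraticAlgebra.re_add, QuadraticAlgebra.im_add, map_add]
        ring
      commutes' := fun c => by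
        have h1 : (algebraMap k (QL W) c).re = algebraMap k (RatFunc k) c := rfl
        have h2 : (algebraMap k (QL W) c).im = 0 := rfl
        simp only [h1, h2, map_zero, zero_mul, add_zero]
        exact φ.commutes c }
  refine ⟨τ, ?_, ?_⟩
  · show φ (algebraMap (RatFunc k) (QL W) RatFunc.X).re +
      φ (algebraMap (RatFunc k) (QL W) RatFunc.X).im * y = t
    have h1 : (algebraMap (RatFunc k) (QL W) RatFunc.X).re = RatFunc.X := rfl
    have h2 : (algebraMap (RatFunc k) (QL W) RatFunc.X).im = 0 := rfl
    rw [h1, h2, map_zero, zero_mul, add_zero, ← RatFunc.algebraMap_X, hφ, aeval_X]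
  · show φ (ω : QL W).re + φ (ω : QL W).im * y = y
    simp

end Fermat.Agent.Lib.FrobCHGen
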