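import Fermat.Agent.Lib.FrobCHGen.Field

/-!
# FrobCHGen, section Q4 (`Local`): the order of cancellation `ecan W c` and the fibre over `x = c`.

This file contains `card_fibre_le` and the case analysis on the cardinal of the fibre; the three
local computations (split / inert / double) enter as hypotheses (`Local.lean` plugs them in).
-/

set_option autoImplicit false

namespace Fermat.Agent.Lib.FrobCHGen

open Polynomial WeierstrassCurve WeierstrassCurve.Affine
open scoped QuadraticAlgebra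

variable {k : Type*} [Field k]

/-- the solutions of `y² = F + e y`, given one of them -/
theorem localCore_setOf_eq (F e y₁ : k) (h₁ : y₁ ^ 2 = F + e * y₁) :
    {y : k | y ^ 2 = F + e * y} = {y₁, e - y₁} := by
  ext y
  simp only [Set.mem_ofPred_eq, Set.mem_insert_iff, Set.mem_singleton_iff]
  constructor
  · intro h
    have h0 : (y - y₁) * (y - (e - y₁)) = 0 := by linear_combination h - h₁
    rcases mul_eq_zero.1 h0 with h | h
    · exact Or.inl (sub_eq_zero.1 h)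
    · exact Or.inr (sub_eq_zero.1 h)
  · rintro (rfl | rfl)
    · exact h₁
    · linear_combination h₁

/-- inert / double / split -/
theorem localCore_trichotomy (F e : k) :
    (Nat.card {y : k // y ^ 2 = F + e * y} = 0 ∧ ∀ y : k, y ^ 2 ≠ F + e * y) ∨
    (Nat.card {y : k // y ^ 2 = F + e * y} = 1 ∧ ∃ y₁ : k, y₁ ^ 2 = F + e * y₁ ∧ 2 * y₁ = e) ∨
    (Nat.card {y : k // y ^ 2 = F + e * y} = 2 ∧
      ∃ y₁ y₂ : k, y₁ ^ 2 = F + e * y₁ ∧ y₂ ^ 2 = F + e * y₂ ∧ y₁ ≠ y₂) := by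
  have hcard : Nat.card {y : k // y ^ 2 = F + e * y} = {y : k | y ^ 2 = F + e * y}.ncard := rfl
  by_cases hex : ∃ y₁ : k, y₁ ^ 2 = F + e * y₁
  · obtain ⟨y₁, h₁⟩ := hex
    have hset := localCore_setOf_eq F e y₁ h₁
    by_cases hd : y₁ = e - y₁
    · refine Or.inr (Or.inl ⟨?_, y₁, h₁, by linear_combination hd⟩)
      rw [hcard, hset, ← hd, Set.pair_eq_singleton, Set.ncard_singleton]
    · refine Or.inr (Or.inr ⟨?_, y₁, e - y₁, h₁, by linear_combination h₁, hd⟩)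
      rw [hcard, hset, Set.ncard_pair hd]
  · refine Or.inl ⟨?_, fun y hy => hex ⟨y, hy⟩⟩
    have : IsEmpty {y : k // y ^ 2 = F + e * y} := ⟨fun y => hex ⟨y.1, y.2⟩⟩
    exact Nat.card_of_isEmpty

theorem card_fibre_le (W : WeierstrassCurve k) (c : k) :
    Nat.card {y : k // y ^ 2 = (fpol W).eval c + (bpol W).eval c * y} ≤ 2 := by
  rcases localCore_trichotomy ((fpol W).eval c) ((bpol W).eval c) with h | h | h <;>
    rw [h.1] <;> norm_num

theorem pow_ecan_dvd_Nm_of [Fintype k] (W : WeierstrassCurve k) (c : k)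
    (hin : (∀ y : k, y ^ 2 ≠ (fpol W).eval c + (bpol W).eval c * y) → (X - C c) ^ 2 ∣ Nm W)
    (hdb : ∀ y₁ : k, y₁ ^ 2 = (fpol W).eval c + (bpol W).eval c * y₁ →
      2 * y₁ = (bpol W).eval c → (X - C c) ∣ Nm W ∧ ¬ (X - C c) ^ 2 ∣ Nm W) :
    (X - C c) ^ ecan W c ∣ Nm W := by
  unfold ecan
  rcases localCore_trichotomy ((fpol W).eval c) ((bpol W).eval c) with h | h | h
  · rw [h.1]
    exact hin h.2
  · obtain ⟨h1, y₁, h₁, h2⟩ := h
    rw [h1]
    simpa using (hdb y₁ h₁ h2).1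
  · rw [h.1]
    simp

theorem not_pow_succ_dvd_Nm_of [Fintype k] (W : WeierstrassCurve k) (c : k)
    (hsp : ∀ y₁ y₂ : k, y₁ ^ 2 = (fpol W).eval c + (bpol W).eval c * y₁ →
      y₂ ^ 2 = (fpol W).eval c + (bpol W).eval c * y₂ → y₁ ≠ y₂ → (Nm W).eval c ≠ 0)
    (hdb : ∀ y₁ : k, y₁ ^ 2 = (fpol W).eval c + (bpol W).eval c * y₁ →
      2 * y₁ = (bpol W).eval c → (X - C c) ∣ Nm W ∧ ¬ (X - C c) ^ 2 ∣ Nm W)
    (hc : ecan W c < 2) : ¬ (X - C c) ^ (ecan W c + 1) ∣ Nm W := by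
  unfold ecan at hc ⊢
  rcases localCore_trichotomy ((fpol W).eval c) ((bpol W).eval c) with h | h | h
  · rw [h.1] at hc
    omega
  · obtain ⟨h1, y₁, h₁, h2⟩ := h
    rw [h1]
    exact (hdb y₁ h₁ h2).2
  · obtain ⟨h1, y₁, y₂, h₁, h₂, hne⟩ := h
    rw [h1]
    intro hdvd
    apply hsp y₁ y₂ h₁ h₂ hne
    have : (X - C c) ∣ Nm W := by simpa using hdvd
    exact dvd_iff_isRoot.1 this

end Fermat.Agent.Lib.FrobCHGen
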