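import Fermat.Agent.Lib.FrobCHGen.MainCore
import Fermat.Agent.Lib.FrobCHGen.GenericCH

/-!
# FrobCHGen, node Q12: Cayley-Hamilton for the Frobenius endomorphism of an elliptic curve given by a
general Weierstrass equation over an arbitrary finite field, with the trace defined by the point
count.
-/

set_option autoImplicit false

namespace Fermat.Agent.Lib.FrobCHGen

open Polynomial WeierstrassCurve WeierstrassCurve.Affine
open Fermat.Agent.Lib.FrobCH (hdeg hgt frob IsConst IsX dmax pol)
open scoped QuadraticAlgebra

variable {k : Type*} [Field k]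

theorem CH [Fintype k] (W : WeierstrassCurve k) (hΔ : W.Δ ≠ 0) {K : Type*} [Field K]
    [Algebra k K] [DecidableEq K] (P : (W⁄K).Point) :
    frob W K (frob W K P)
        - ((Fintype.card k : ℤ) + 1 - (Nat.card W.toAffine.Point : ℤ)) • frob W K P
        + (Fintype.card k : ℤ) • P = 0 :=
  MainCore.CH_of_generic W hΔ (fun h => generic_CH W hΔ h) P

end Fermat.Agent.Lib.FrobCHGen
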