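import Fermat.Agent.Lib.FrobCHGen.Hom
import Fermat.Agent.Lib.FrobCHGen.Odd
import Fermat.Agent.Lib.FrobCH.Short

/-!
# FrobCHGen, node Q12 (core; owner helper276): Cayley-Hamilton for Frobenius on a general
Weierstrass curve over a finite field, FROM the generic statement `generic_CH` (node Q11), which is
taken here as a hypothesis.  Port of `Fermat.Agent.Lib.FrobCH.CH_short`.
-/

set_option autoImplicit false

namespace Fermat.Agent.Lib.FrobCHGen

open Polynomial WeierstrassCurve WeierstrassCurve.Affine
open Fermat.Agent.Lib.FrobCH (hdeg hgt frob IsConst IsX dmax pol rho rho_apply map_rho map_frob)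
open scoped QuadraticAlgebra

variable {k : Type*} [Field k]

/-- the equation of the curve in the form `y² = f + b y` (local copy of node Q1) -/
theorem MainCore.equation_iff (W : WeierstrassCurve k) {K : Type*} [Field K] [Algebra k K]
    (t y : K) :
    (W⁄K).Equation t y ↔ y ^ 2 = aeval t (fpol W) + aeval t (bpol W) * y := by
  rw [Affine.equation_iff]
  simp only [fpol, bpol, map_add, map_mul, map_pow, map_neg, aeval_X, aeval_C,
    Affine.baseChange, WeierstrassCurve.baseChange, WeierstrassCurve.map_a₁,
    WeierstrassCurve.map_a₂, WeierstrassCurve.map_a₃, WeierstrassCurve.map_a₄,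
    WeierstrassCurve.map_a₆]
  constructor <;> intro h <;> linear_combination h

theorem MainCore.nonsingular_of_eq (W : WeierstrassCurve k) (hΔ : W.Δ ≠ 0) {K : Type*} [Field K]
    [Algebra k K] {t y : K} (h : y ^ 2 = aeval t (fpol W) + aeval t (bpol W) * y) :
    (W⁄K).Nonsingular t y := by
  have hΔ' : (W⁄K).Δ ≠ 0 := by
    simp only [Affine.baseChange, WeierstrassCurve.baseChange, WeierstrassCurve.map_Δ]
    exact (_root_.map_ne_zero _).mpr hΔ
  exact (Affine.equation_iff_nonsingular_of_Δ_ne_zero hΔ').mp ((MainCore.equation_iff W t y).2 h)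

theorem MainCore.eq_of_nonsingular (W : WeierstrassCurve k) {K : Type*} [Field K] [Algebra k K]
    {t y : K} (h : (W⁄K).Nonsingular t y) :
    y ^ 2 = aeval t (fpol W) + aeval t (bpol W) * y :=
  (MainCore.equation_iff W t y).1 h.1

/-- a quadratic equation has a root in an algebraically closed field -/
theorem MainCore.exists_root {Ω : Type*} [Field Ω] [IsAlgClosed Ω] (f b : Ω) :
    ∃ y : Ω, y ^ 2 = f + b * y := by
  have hdeg : (X ^ 2 - C b * X - C f : Polynomial Ω).degree ≠ 0 := by
    have : (X ^ 2 - C b * X - C f : Polynomial Ω).degree = 2 := by compute_degree!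
    rw [this]
    norm_num
  obtain ⟨y, hy⟩ := IsAlgClosed.exists_root _ hdeg
  refine ⟨y, ?_⟩
  simp only [IsRoot.def, eval_sub, eval_pow, eval_X, eval_mul, eval_C] at hy
  linear_combination hy

/-- a root of a monic quadratic equation with algebraic coefficients is algebraic -/
theorem MainCore.isAlgebraic_of_quadratic {K Ω : Type*} [Field K] [Field Ω] [Algebra K Ω]
    {f b y : Ω} (hf : IsAlgebraic K f) (hb : IsAlgebraic K b) (h : y ^ 2 = f + b * y) :
    IsAlgebraic K y := by
  let M : IntermediateField K Ω := algebraicClosure K Ω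
  have hfM : f ∈ M := (mem_algebraicClosure_iff).mpr hf
  have hbM : b ∈ M := (mem_algebraicClosure_iff).mpr hb
  have hint : IsIntegral M y := by
    refine ⟨X ^ 2 - C (⟨b, hbM⟩ : M) * X - C (⟨f, hfM⟩ : M), by monicity!, ?_⟩
    simp only [eval₂_sub, eval₂_pow, eval₂_X, eval₂_mul, eval₂_C]
    change y ^ 2 - b * y - f = 0
    rw [h]
    ring
  have : Algebra.IsAlgebraic K M := algebraicClosure.isAlgebraic K Ω
  have : Algebra.IsIntegral K M := Algebra.IsAlgebraic.isIntegral
  exact (isIntegral_trans y hint).isAlgebraic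

/-- **Cayley-Hamilton for Frobenius from the generic case.** -/
theorem MainCore.CH_of_generic [Fintype k] (W : WeierstrassCurve k) (hΔ : W.Δ ≠ 0)
    (hgen : ∀ [DecidableEq (QL W)]
      (h : (W⁄(QL W)).Nonsingular (algebraMap (RatFunc k) (QL W) RatFunc.X) ω),
      IsConst
        (frob W (QL W) (frob W (QL W) (.some _ _ h))
          - ((Fintype.card k : ℤ) + 1 - (Nat.card W.toAffine.Point : ℤ)) •
              frob W (QL W) (.some _ _ h)
          + (Fintype.card k : ℤ) • (.some _ _ h)))
    {K : Type*} [Field K] [Algebra k K] [DecidableEq K] (P : (W⁄K).Point) :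
    frob W K (frob W K P)
        - ((Fintype.card k : ℤ) + 1 - (Nat.card W.toAffine.Point : ℤ)) • frob W K P
        + (Fintype.card k : ℤ) • P = 0 := by
  classical
  set a : ℤ := (Fintype.card k : ℤ) + 1 - (Nat.card W.toAffine.Point : ℤ) with ha
  rw [← rho_apply]
  -- the big field
  let Ω := AlgebraicClosure (RatFunc K)
  let t : Ω := algebraMap (RatFunc K) Ω RatFunc.X
  obtain ⟨y₁, hy₁⟩ := MainCore.exists_root (aeval t (fpol W)) (aeval t (bpol W))
  have hη₁ : (W⁄Ω).Nonsingular t y₁ := MainCore.nonsingular_of_eq W hΔ hy₁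
  let η₁ : (W⁄Ω).Point := .some t y₁ hη₁
  let v : (W⁄Ω).Point := Point.baseChange (W' := W) K Ω P
  let η₂ : (W⁄Ω).Point := η₁ + v
  -- the subgroup of points algebraic over `K`
  let M : IntermediateField K Ω := algebraicClosure K Ω
  let S : AddSubgroup (W⁄Ω).Point := (Point.map (W' := W) (S := K) M.val).range
  have htK : Transcendental K t := by
    have : Transcendental K (RatFunc.X : RatFunc K) := by
      apply RatFunc.transcendental_of_ne_C
      exact Fermat.Agent.Lib.FrobCH.X_ne_C
    exact (transcendental_algebraMap_iff (algebraMap (RatFunc K) Ω).injective).mpr this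
  have haev : ∀ (p : k[X]) {x : Ω}, IsAlgebraic K x → IsAlgebraic K (aeval x p) := by
    intro p x hx
    have e : aeval x p = aeval x (p.map (algebraMap k K)) := by
      rw [aeval_map_algebraMap]
    rw [e]
    have hxM : x ∈ M.toSubalgebra := (mem_algebraicClosure_iff).mpr hx
    have h2 : aeval x (p.map (algebraMap k K)) ∈ M.toSubalgebra :=
      Algebra.adjoin_le (Set.singleton_subset_iff.2 hxM)
        (Polynomial.aeval_mem_adjoin_singleton _ _)
    exact (mem_algebraicClosure_iff).mp h2
  have hmemS : ∀ {x y : Ω} (h : (W⁄Ω).Nonsingular x y), IsAlgebraic K x →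
      (Point.some x y h : (W⁄Ω).Point) ∈ S := by
    intro x y h hx
    have hy : IsAlgebraic K y :=
      MainCore.isAlgebraic_of_quadratic (haev _ hx) (haev _ hx) (MainCore.eq_of_nonsingular W h)
    have hxM : x ∈ M := (mem_algebraicClosure_iff).mpr hx
    have hyM : y ∈ M := (mem_algebraicClosure_iff).mpr hy
    have h' : (W⁄M).Nonsingular (⟨x, hxM⟩ : M) ⟨y, hyM⟩ :=
      (Affine.baseChange_nonsingular W (f := M.val) M.val.injective ..).mp h
    exact ⟨.some _ _ h', by simp [Point.map_some]⟩
  have hvS : v ∈ S := by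
    refine ⟨Point.baseChange (W' := W) K M P, ?_⟩
    exact Point.map_baseChange (W' := W) M.val P
  have hη₁S : η₁ ∉ S := by
    rintro ⟨Q, hQ⟩
    cases Q with
    | zero => simp [η₁, ← Point.zero_def] at hQ
    | some x y h =>
      rw [Point.map_some] at hQ
      simp only [η₁, Point.some.injEq] at hQ
      apply htK
      rw [← hQ.1]
      exact (mem_algebraicClosure_iff).mp x.2
  have hη₂S : η₂ ∉ S := by
    intro h
    apply hη₁S
    have : η₁ = η₂ - v := by simp [η₂]
    rw [this]
    exact S.sub_mem h hvS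
  have htk : Transcendental k t := by
    intro h
    exact htK (h.extendScalars (algebraMap k K).injective)
  -- the universal generic point
  have hη : (W⁄(QL W)).Nonsingular (algebraMap (RatFunc k) (QL W) RatFunc.X) ω :=
    nonsingular_eta W hΔ
  let η : (W⁄(QL W)).Point := .some _ _ hη
  have hT : IsConst (rho W (QL W) a η) := by
    rw [rho_apply]
    exact hgen hη
  obtain ⟨τ₁, hτ₁t, hτ₁y⟩ := exists_hom W t y₁ htk hy₁
  have e₁ : Point.map (W' := W) τ₁ η = η₁ := by
    simp only [η, η₁, Point.map_some, Point.some.injEq]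
    exact ⟨hτ₁t, hτ₁y⟩
  -- the second generic point
  have key : rho W Ω a η₂ = rho W Ω a η₁ := by
    rcases hη₂ : η₂ with _ | ⟨t₂, y₂, h₂⟩
    · exfalso
      apply hη₂S
      rw [hη₂]
      exact S.zero_mem
    · have ht₂ : Transcendental k t₂ := by
        intro h
        apply hη₂S
        rw [hη₂]
        exact hmemS h₂ (h.extendScalars (algebraMap k K).injective)
      obtain ⟨τ₂, hτ₂t, hτ₂y⟩ := exists_hom W t₂ y₂ ht₂ (MainCore.eq_of_nonsingular W h₂)
      have e₂ : Point.map (W' := W) τ₂ η = .some t₂ y₂ h₂ := by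
        simp only [η, Point.map_some, Point.some.injEq]
        exact ⟨hτ₂t, hτ₂y⟩
      rw [← e₂, ← e₁, ← map_rho, ← map_rho]
      exact hT.map_eq τ₂ τ₁
  have hv0 : rho W Ω a v = 0 := by
    have : rho W Ω a η₂ = rho W Ω a η₁ + rho W Ω a v := map_add _ _ _
    rw [key] at this
    simpa using this
  have : Point.map (W' := W) (Algebra.ofId K Ω |>.restrictScalars k) (rho W K a P) = 0 := by
    rw [map_rho]
    exact hv0
  exact Point.map_injective (W' := W) _ (this.trans (map_zero _).symm)

end Fermat.Agent.Lib.FrobCHGen
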