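import Fermat.Agent.Lib.FrobCHGen.Field

/-!
# FrobCHGen, section Q1: evaluation homomorphisms of the coordinate ring  (helper171)
-/

set_option autoImplicit false

namespace Fermat.Agent.Lib.FrobCHGen

open Polynomial WeierstrassCurve WeierstrassCurve.Affine
open Fermat.Agent.Lib.FrobCH (hdeg hgt frob IsConst IsX dmax pol)
open scoped QuadraticAlgebra

variable {k : Type*} [Field k]

theorem exists_evalPt (W : WeierstrassCurve k) {K : Type*} [CommRing K] [Algebra k K] (t y : K)
    (h : y ^ 2 = aeval t (fpol W) + aeval t (bpol W) * y) :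
    ∃ e : QB W →+* K, (∀ p : k[X], e (algebraMap k[X] (QB W) p) = aeval t p) ∧ e ω = y ∧
      e (star ω) = aeval t (bpol W) - y := by
  let e : QB W →+* K :=
    { toFun := fun z => aeval t z.re + aeval t z.im * y
      map_one' := by simp
      map_mul' := fun z w => by
        simp only [QuadraticAlgebra.re_mul, QuadraticAlgebra.im_mul, map_add, map_mul]
        linear_combination (-(aeval t z.im * aeval t w.im)) * h
      map_zero' := by simp
      map_add' := fun z w => by
        simp only [QuadraticAlgebra.re_add, QuadraticAlgebra.im_add, map_add]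
        ring }
  refine ⟨e, fun p => ?_, ?_, ?_⟩
  · show aeval t p + aeval t (0 : k[X]) * y = aeval t p
    simp
  · show aeval t (0 : k[X]) + aeval t (1 : k[X]) * y = y
    simp
  · show aeval t ((0 : k[X]) + bpol W * 1) + aeval t (-1 : k[X]) * y = aeval t (bpol W) - y
    simp
    ring

theorem evC_re (W : WeierstrassCurve k) (c : k) (z : QB W) : (evC W c z).re = z.re.eval c := rfl

theorem evC_im (W : WeierstrassCurve k) (c : k) (z : QB W) : (evC W c z).im = z.im.eval c := rfl

theorem evC_algebraMap (W : WeierstrassCurve k) (c : k) (p : k[X]) :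
    evC W c (algebraMap k[X] (QB W) p) = algebraMap k (Qc W c) (p.eval c) := by
  ext <;> simp [evC_re, evC_im]

theorem evC_omega (W : WeierstrassCurve k) (c : k) : evC W c ω = ω := by
  ext <;> simp [evC_re, evC_im]

theorem evC_star (W : WeierstrassCurve k) (c : k) (z : QB W) :
    evC W c (star z) = star (evC W c z) := by
  ext <;> simp [evC_re, evC_im]

theorem norm_evC (W : WeierstrassCurve k) (c : k) (z : QB W) :
    QuadraticAlgebra.norm (evC W c z) = (QuadraticAlgebra.norm z).eval c := by
  simp [QuadraticAlgebra.norm_def, evC_re, evC_im]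

theorem sq_dvd_norm_of_evC_eq_zero (W : WeierstrassCurve k) (c : k) (z : QB W)
    (h : evC W c z = 0) : (X - C c) ^ 2 ∣ QuadraticAlgebra.norm z := by
  have h1 : z.re.eval c = 0 := congrArg QuadraticAlgebra.re h
  have h2 : z.im.eval c = 0 := congrArg QuadraticAlgebra.im h
  obtain ⟨u, hu⟩ := dvd_iff_isRoot.2 h1
  obtain ⟨v, hv⟩ := dvd_iff_isRoot.2 h2
  refine ⟨u * u + bpol W * u * v - fpol W * v * v, ?_⟩
  rw [QuadraticAlgebra.norm_def, hu, hv]
  ring

/-- the equation of the curve in the form `y² = f + b y` -/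
theorem equation_iff' (W : WeierstrassCurve k) {K : Type*} [Field K] [Algebra k K] (t y : K) :
    (W⁄K).Equation t y ↔ y ^ 2 = aeval t (fpol W) + aeval t (bpol W) * y := by
  have e1 : (W⁄K).a₁ = algebraMap k K W.a₁ := rfl
  have e2 : (W⁄K).a₂ = algebraMap k K W.a₂ := rfl
  have e3 : (W⁄K).a₃ = algebraMap k K W.a₃ := rfl
  have e4 : (W⁄K).a₄ = algebraMap k K W.a₄ := rfl
  have e6 : (W⁄K).a₆ = algebraMap k K W.a₆ := rfl
  rw [Affine.equation_iff, e1, e2, e3, e4, e6]
  simp only [fpol, bpol, map_add, map_mul, map_pow, map_neg, aeval_X, aeval_C]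
  constructor <;> intro h <;> linear_combination h

end Fermat.Agent.Lib.FrobCHGen
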